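/-
S33, cell [S33-CAR+], (ii) of the lead's arbitration #4069 (helper22; prefix `s33cp_`; Mathlib only):
PUSH-FORWARD OF THE FILTERED GROUP `G1 ⊆ Tp^m` ALONG `πQ^m : Tp^m → Q^m`.

`πQ : Tp →+ Q` is an equivariant surjection whose kernel is `ϖ ^ M • Tp` (in use: `Q = J₀(N)[p ^ M]`,
`πQ = ffc_s32_proj`).  The output of [S33-CAR+] lives in `Fin m → Tp`; its filtration ends at
`Fil K = {x | ∀ i, ∃ y, x i = ϖ ^ M • y} = ker πQ^m` and `f` kills `Fil K`.  Hence everything descends: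

* `s33cp_Pi πQ m`            : the map `πQ^m`; `s33cp_Pi_eq_zero_iff`, `s33cp_Pi_act`;
* `s33cp_pushF`              : the descended map `f' : G1.map πQ^m →+ A`, `s33cp_pushF_apply`;
* `s33cp_push_mem`           : transport of a clause `op (Fil j) ⊆ Fil (j+1)`;
* **`s33cp_push`**           : the packaged statement.
-/
import Mathlib

set_option autoImplicit false

namespace Fermat.Agent.S33

section Push

variable {Λ : Type*} [CommRing Λ] {Tp : Type*} [AddCommGroup Tp] [Module Λ Tp]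
  {Q : Type*} [AddCommGroup Q] (πQ : Tp →+ Q) (m : ℕ)

/-- the map `πQ^m : Tp^m → Q^m` -/
def s33cp_Pi : (Fin m → Tp) →+ (Fin m → Q) := πQ.compLeft (Fin m)

@[simp]
theorem s33cp_Pi_apply (x : Fin m → Tp) (i : Fin m) : s33cp_Pi πQ m x i = πQ (x i) := rfl

theorem s33cp_Pi_surjective (hπ : Function.Surjective πQ) :
    Function.Surjective (s33cp_Pi πQ m) := by
  intro y
  choose x hx using fun i => hπ (y i)
  exact ⟨x, funext hx⟩

variable {πQ m}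

theorem s33cp_Pi_eq_zero_iff {ϖ : Λ} {M : ℕ} (hπk : ∀ x : Tp, πQ x = 0 ↔ ∃ y, x = ϖ ^ M • y)
    (x : Fin m → Tp) : s33cp_Pi πQ m x = 0 ↔ ∀ i, ∃ y, x i = ϖ ^ M • y := by
  constructor
  · intro h i
    exact (hπk (x i)).mp (congrFun h i)
  · intro h
    funext i
    exact (hπk (x i)).mpr (h i)

/-- equivariance of `πQ^m` for any pair of compatible operators -/
theorem s33cp_Pi_act {a : Tp → Tp} {b : Q → Q} (hab : ∀ x, πQ (a x) = b (πQ x))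
    (x : Fin m → Tp) : s33cp_Pi πQ m (fun i => a (x i)) = fun i => b (s33cp_Pi πQ m x i) :=
  funext fun i => hab (x i)

/-- transport of a clause `op (Fil j) ⊆ Fil (j+1)` -/
theorem s33cp_push_mem {F F' : AddSubgroup (Fin m → Tp)}
    {opT : (Fin m → Tp) → (Fin m → Tp)} {opQ : (Fin m → Q) → (Fin m → Q)}
    (hop : ∀ x, s33cp_Pi πQ m (opT x) = opQ (s33cp_Pi πQ m x))
    (h : ∀ x ∈ F, opT x ∈ F') :
    ∀ y ∈ F.map (s33cp_Pi πQ m), opQ y ∈ F'.map (s33cp_Pi πQ m) := by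
  rintro _ ⟨x, hx, rfl⟩
  exact ⟨opT x, h x hx, hop x⟩

variable {A : Type*} [AddCommGroup A]

/-- the restriction of `πQ^m` to `G1`, onto its image -/
def s33cp_res (πQ : Tp →+ Q) (G1 : AddSubgroup (Fin m → Tp)) :
    ↥G1 →+ ↥(G1.map (s33cp_Pi πQ m)) :=
  (s33cp_Pi πQ m).addSubgroupMap G1

theorem s33cp_res_surjective (G1 : AddSubgroup (Fin m → Tp)) :
    Function.Surjective (s33cp_res πQ G1) :=
  (s33cp_Pi πQ m).addSubgroupMap_surjective G1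

theorem s33cp_coe_res (G1 : AddSubgroup (Fin m → Tp)) (x : ↥G1) :
    ((s33cp_res πQ G1 x : ↥(G1.map (s33cp_Pi πQ m))) : Fin m → Q) = s33cp_Pi πQ m x.1 := rfl

/-- the descended map -/
noncomputable def s33cp_pushF (G1 : AddSubgroup (Fin m → Tp)) (f : ↥G1 →+ A)
    (hf0 : ∀ x : ↥G1, s33cp_Pi πQ m x.1 = 0 → f x = 0) : ↥(G1.map (s33cp_Pi πQ m)) →+ A :=
  (s33cp_res πQ G1).liftOfRightInverse (Function.surjInv (s33cp_res_surjective G1))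
    (Function.rightInverse_surjInv (s33cp_res_surjective G1))
    ⟨f, fun x hx => by
      rw [AddMonoidHom.mem_ker] at hx ⊢
      exact hf0 x (by rw [← s33cp_coe_res, hx]; rfl)⟩

theorem s33cp_pushF_res (G1 : AddSubgroup (Fin m → Tp)) (f : ↥G1 →+ A)
    (hf0 : ∀ x : ↥G1, s33cp_Pi πQ m x.1 = 0 → f x = 0) (x : ↥G1) :
    s33cp_pushF G1 f hf0 (s33cp_res πQ G1 x) = f x :=
  AddMonoidHom.liftOfRightInverse_comp_apply _ _ _ _ x

theorem s33cp_pushF_apply (G1 : AddSubgroup (Fin m → Tp)) (f : ↥G1 →+ A)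
    (hf0 : ∀ x : ↥G1, s33cp_Pi πQ m x.1 = 0 → f x = 0) (x : ↥G1)
    (h : s33cp_Pi πQ m x.1 ∈ G1.map (s33cp_Pi πQ m)) :
    s33cp_pushF G1 f hf0 ⟨s33cp_Pi πQ m x.1, h⟩ = f x :=
  s33cp_pushF_res G1 f hf0 x

theorem s33cp_pushF_surjective (G1 : AddSubgroup (Fin m → Tp)) (f : ↥G1 →+ A)
    (hf0 : ∀ x : ↥G1, s33cp_Pi πQ m x.1 = 0 → f x = 0) (hf : Function.Surjective f) :
    Function.Surjective (s33cp_pushF G1 f hf0) := by
  intro a
  obtain ⟨x, rfl⟩ := hf a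
  exact ⟨s33cp_res πQ G1 x, s33cp_pushF_res G1 f hf0 x⟩

end Push

section Main

variable {Λ : Type*} [CommRing Λ] {Tp : Type*} [AddCommGroup Tp] [Module Λ Tp]
  {G : Type*} [Group G] {Q : Type*} [AddCommGroup Q] [DistribMulAction G Q]
  {A : Type*} [AddCommGroup A]

/-- **Push-forward of the output of [S33-CAR+]** along `πQ^m`. -/
theorem s33cp_push (ρ : G →* Module.End Λ Tp) (πQ : Tp →+ Q)
    (hπe : ∀ (g : G) (x : Tp), πQ (ρ g x) = g • πQ x) (ϖ : Λ) (M : ℕ)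
    (hπk : ∀ x : Tp, πQ x = 0 ↔ ∃ y, x = ϖ ^ M • y)
    (actA : G → A → A) (m K : ℕ) (G1 : AddSubgroup (Fin m → Tp)) (f : ↥G1 →+ A)
    (Fil : ℕ → AddSubgroup (Fin m → Tp)) (h0 : Fil 0 = G1)
    (hK : ∀ x, x ∈ Fil K ↔ ∀ i, ∃ y, x i = ϖ ^ M • y) (hanti : Antitone Fil)
    (hstab : ∀ (j : ℕ) (g : G), ∀ x ∈ Fil j, (fun i => ρ g (x i)) ∈ Fil j)
    (hfs : Function.Surjective f)
    (hfe : ∀ (g : G) (x : ↥G1) (hx : (fun i => ρ g (x.1 i)) ∈ G1),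
      f ⟨fun i => ρ g (x.1 i), hx⟩ = actA g (f x))
    (hf0 : ∀ x : ↥G1, x.1 ∈ Fil K → f x = 0) :
    ∃ (G1' : AddSubgroup (Fin m → Q)) (f' : ↥G1' →+ A) (Fil' : ℕ → AddSubgroup (Fin m → Q)),
      (∀ j, Fil' j = (Fil j).map (s33cp_Pi πQ m)) ∧ Fil' 0 = G1' ∧ Fil' K = ⊥ ∧ Antitone Fil' ∧
      (∀ (j : ℕ) (g : G), ∀ y ∈ Fil' j, g • y ∈ Fil' j) ∧
      Function.Surjective f' ∧
      (∀ (g : G) (y : ↥G1') (hy : g • y.1 ∈ G1'), f' ⟨g • y.1, hy⟩ = actA g (f' y)) ∧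
      (∀ (x : ↥G1) (hx : s33cp_Pi πQ m x.1 ∈ G1'), f' ⟨s33cp_Pi πQ m x.1, hx⟩ = f x) ∧
      (∀ y, y ∈ G1' ↔ ∃ x ∈ G1, s33cp_Pi πQ m x = y) := by
  have hact : ∀ (g : G) (x : Fin m → Tp),
      s33cp_Pi πQ m (fun i => ρ g (x i)) = g • s33cp_Pi πQ m x := fun g x =>
    funext fun i => hπe g (x i)
  have hker : ∀ x : ↥G1, s33cp_Pi πQ m x.1 = 0 → f x = 0 := fun x hx =>
    hf0 x ((hK x.1).mpr ((s33cp_Pi_eq_zero_iff hπk x.1).mp hx))
  refine ⟨G1.map (s33cp_Pi πQ m), s33cp_pushF G1 f hker, fun j => (Fil j).map (s33cp_Pi πQ m),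
    fun j => rfl, by show (Fil 0).map _ = _; rw [h0], ?_, ?_, ?_, s33cp_pushF_surjective G1 f hker hfs, ?_, ?_, ?_⟩
  · rw [eq_bot_iff]
    rintro _ ⟨x, hx, rfl⟩
    exact (s33cp_Pi_eq_zero_iff hπk x).mpr ((hK x).mp hx)
  · intro a b hab
    exact AddSubgroup.map_mono (hanti hab)
  · rintro j g _ ⟨x, hx, rfl⟩
    exact ⟨fun i => ρ g (x i), hstab j g x hx, hact g x⟩
  · rintro g ⟨_, x, hx, rfl⟩ hy
    have hx' : (fun i => ρ g (x i)) ∈ G1 := by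
      rw [← h0] at hx ⊢
      exact hstab 0 g x hx
    have h1 : (⟨g • s33cp_Pi πQ m x, hy⟩ : ↥(G1.map (s33cp_Pi πQ m))) =
        s33cp_res πQ G1 ⟨fun i => ρ g (x i), hx'⟩ := Subtype.ext (hact g x).symm
    have h2 : (⟨s33cp_Pi πQ m x, ⟨x, hx, rfl⟩⟩ : ↥(G1.map (s33cp_Pi πQ m))) =
        s33cp_res πQ G1 ⟨x, hx⟩ := rfl
    rw [h1, h2, s33cp_pushF_res, s33cp_pushF_res]
    exact hfe g ⟨x, hx⟩ hx'
  · intro x hx
    exact s33cp_pushF_res G1 f hker x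
  · intro y
    exact AddSubgroup.mem_map

end Main

end Fermat.Agent.S33
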