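/-
S33, cell [S33-CAR+], the concrete instance at the Tate package, pushed to `J₀(N)[p ^ M]`
(helper22; prefix `s33cq_`, and the one name `s33c_main_Q`).

`s33c_main` (helper18, `Car/Main.lean`: Carayol's lemma with the filtration and the (BLR-step)) is
instantiated at the Tate package `D := tjp_tate N p S hpS (tji_nodeE N) (tji_S18 N)` of `J₀(N)`
exactly as in `ffc_s32_order` (Hecke algebra `ℤ_p[T_ℓ]`, `lam` from `ur_EigenGen`, determinant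
`sst_det_eq_eps`, traces `ur_approx`, span `ur_tr_span_eq_top`), with `ρ₁ := ffc_rm_rho1 H.ρ I`,
`k := T ⧸ 𝔪_T`, `π := Ideal.Quotient.factor (I ≤ 𝔪_T)`; the output in `Fin m → T_p J₀(N)` is then
pushed forward along `(ffc_s32_proj N p M)^m` to `Fin m → J₀(N)[p ^ M]` by `s33cp_push`.

* `s33cq_main_I` : for a proper ideal `I ⊇ 𝔪_T ^ n`;
* **`s33c_main_Q`** : for `I = 𝔪_T ^ n`, `0 < n`.
-/
import Mathlib
import Fermat.Agent.S33.Car.Main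
import Fermat.Agent.S33.Car.Push
import Fermat.Agent.FF.Car.S32

set_option autoImplicit false
set_option linter.style.haveILetI false
set_option linter.unusedSectionVars false

noncomputable section

namespace Fermat.Agent.S33

open IsLocalRing Fermat.Agent.JT3 Fermat.Agent.SS Fermat.Agent.FF

/-! ### the projection `T_p J₀(N) → J₀(N)[p ^ M]` -/

section Proj

variable (N p : ℕ) [NeZero N] [Fact p.Prime] (M : ℕ)

theorem s33cq_proj_equivariant (σ : ff_GQ) (x : tj_T N p) :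
    ffc_s32_proj N p M (tj_rho N p σ x) = σ • ffc_s32_proj N p M x := rfl

theorem s33cq_proj_eq_zero_iff (x : tj_T N p) :
    ffc_s32_proj N p M x = 0 ↔ ∃ y : tj_T N p, x = ((p : ℤ_[p]) ^ M) • y := by
  constructor
  · intro hx
    exact tm_exists_eq_smul x M (congrArg Subtype.val hx)
  · rintro ⟨y, rfl⟩
    exact Subtype.ext (tm_smul_pow_apply y M)

end Proj

/-! ### reduction of the matrices `ffc_rm_rho1` -/

section Mat

variable {T : Type} [CommRing T] [IsLocalRing T] (ρ : GaloisRepAdic T)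

theorem s33cq_factor_rho1 {I J : Ideal T} (hIJ : I ≤ J) (g : ff_GQ) :
    (Ideal.Quotient.factor hIJ).mapMatrix (ffc_rm_rho1 ρ I g) = ffc_rm_rho1 ρ J g := by
  rw [ffc_rm_rho1_apply, ffc_rm_rho1_apply, RingHom.mapMatrix_apply, Matrix.map_map]
  rfl

end Mat

/-! ### the instance -/

section Inst

variable {p : ℕ} {N : ℕ} [NeZero N] {S : Finset ℕ}
  {𝒪 : Type} [CommRing 𝒪] [IsDomain 𝒪] [IsDiscreteValuationRing 𝒪]
  [IsAdicComplete (IsLocalRing.maximalIdeal 𝒪) 𝒪]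
  {θ : CuspForm.heckeAlgebra N 2 (↑S : Set ℕ) →+* IsLocalRing.ResidueField 𝒪}
  {T : Type} [CommRing T] [IsLocalRing T] [IsNoetherianRing T]
  [IsAdicComplete (IsLocalRing.maximalIdeal T) T] [Algebra 𝒪 T] [IsLocalHom (algebraMap 𝒪 T)]
  [Module.Finite 𝒪 T] [Module.Free 𝒪 T]

/-- **[S33-CAR+] for a Tate package `D` with projections `πQ M : D.Tp → Q M` of kernel
`p ^ M • D.Tp`**, for a proper ideal `I ⊇ 𝔪_T ^ n`. -/
theorem s33cq_main_D [Fact p.Prime] [Finite (ResidueField 𝒪)] [CharZero 𝒪]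
    (D : pk_Tate p N S) (hD : ur_EigenGen D)
    (Q : ℕ → Type) [∀ M, AddCommGroup (Q M)] [∀ M, DistribMulAction ff_GQ (Q M)]
    (πQ : ∀ M, D.Tp →+ Q M)
    (hπe : ∀ (M : ℕ) (σ : ff_GQ) (x : D.Tp), πQ M (D.ρ σ x) = σ • πQ M x)
    (hπk : ∀ (M : ℕ) (x : D.Tp), πQ M x = 0 ↔ ∃ y, x = (p : ℤ_[p]) ^ M • y)
    (hp𝒪 : (p : 𝒪) ∈ maximalIdeal 𝒪) (hpS : p ∈ S)
    (hNS : ∀ q : ℕ, q.Prime → q ∣ N → q ∈ S)
    (H : CuspForm.HeckeGaloisRepDatum N (↑S : Set ℕ) 𝒪 θ T)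
    (I : Ideal T) (hI : I ≠ ⊤) (n : ℕ) (hmI : maximalIdeal T ^ n ≤ I) :
    ∃ (M m K : ℕ) (G1' : AddSubgroup (Fin m → Q M)) (f' : ↥G1' →+ (Fin 2 → T ⧸ I))
      (Fil' : ℕ → AddSubgroup (Fin m → Q M)),
      Fil' 0 = G1' ∧ Fil' K = ⊥ ∧ Antitone Fil' ∧
      (∀ (j : ℕ) (g : ff_GQ), ∀ y ∈ Fil' j, g • y ∈ Fil' j) ∧
      (∀ j : ℕ, ∀ y ∈ Fil' j, p • y ∈ Fil' (j + 1)) ∧
      Function.Surjective f' ∧
      (∀ (g : ff_GQ) (y : ↥G1') (hy : g • y.1 ∈ G1'),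
        f' ⟨g • y.1, hy⟩ = (ffc_rm_rho1 H.ρ I g).mulVec (f' y)) ∧
      (∀ (τ σ : ff_GQ) (c : ℤ),
        (ffc_rm_rho1 H.ρ (maximalIdeal T) τ -
            (c : Matrix (Fin 2) (Fin 2) (T ⧸ maximalIdeal T))) *
          (ffc_rm_rho1 H.ρ (maximalIdeal T) σ - 1) = 0 →
        ∀ j, ∀ y ∈ Fil' j, τ • (σ • y - y) - c • (σ • y - y) ∈ Fil' (j + 1)) := by
  have hpT : (p : T) ∈ maximalIdeal T := by
    have h1 := map_nonunit (algebraMap 𝒪 T) (p : 𝒪) hp𝒪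
    rwa [map_natCast] at h1
  letI : Algebra ℤ_[p] T := (cya_padicHom p T hpT).toAlgebra
  have halg : ∀ z : ℤ_[p], algebraMap ℤ_[p] T z = cya_padicHom p T hpT z := fun _ => rfl
  have hpalg : algebraMap ℤ_[p] T (p : ℤ_[p]) = (p : T) := map_natCast _ _
  have hp0 : (p : 𝒪) ≠ 0 := Nat.cast_ne_zero.mpr (Fact.out : p.Prime).ne_zero
  have hreg : ∀ t : T, (p : T) * t = 0 → t = 0 := by
    intro t ht
    have h1 : (p : 𝒪) • t = 0 := by rw [Algebra.smul_def, map_natCast]; exact ht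
    exact (smul_eq_zero.mp h1).resolve_left hp0
  haveI : Module.Flat ℤ_[p] T := ffc_pa_flat hreg
  letI := ffc_s32_commRing D
  haveI := ffc_s32_finite D
  obtain ⟨lam₀, hlam₀⟩ := hD T H.π
  let lam : ↥(Algebra.adjoin ℤ_[p] (pk_heckeSet N S D.Tl)) →ₐ[ℤ_[p]] T :=
    { lam₀ with
      commutes' := fun z => RingHom.congr_fun (ffc_pa_ringHom_ext hpT
        (lam₀.comp (algebraMap ℤ_[p] ↥(Algebra.adjoin ℤ_[p] (pk_heckeSet N S D.Tl))))
        (algebraMap ℤ_[p] T)) z }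
  have hlam : ∀ c, lam c = lam₀ c := fun _ => rfl
  have hI𝔪 : I ≤ maximalIdeal T := le_maximalIdeal hI
  -- finiteness of the quotients
  haveI : Finite (ResidueField ℤ_[p]) :=
    Finite.of_equiv _ (PadicInt.residueField (p := p)).symm.toEquiv
  have hpp0 : (p : ℤ_[p]) ≠ 0 := Nat.cast_ne_zero.mpr (Fact.out : p.Prime).ne_zero
  have hfin : ∀ M : ℕ, Finite (T ⧸ Ideal.span {algebraMap ℤ_[p] T (p : ℤ_[p]) ^ M}) := by
    intro M
    rw [hpalg]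
    have h1 := ffc_pa_finite_quot (T := T) ((p : 𝒪) ^ M) (pow_ne_zero _ hp0)
    rwa [map_pow, map_natCast] at h1
  have hfinc : ∀ M : ℕ, Finite (↥(Algebra.adjoin ℤ_[p] (pk_heckeSet N S D.Tl)) ⧸
      Ideal.span {algebraMap ℤ_[p] ↥(Algebra.adjoin ℤ_[p] (pk_heckeSet N S D.Tl))
        (p : ℤ_[p]) ^ M}) := by
    intro M
    have h1 := ffc_pa_finite_quot (T := ↥(Algebra.adjoin ℤ_[p] (pk_heckeSet N S D.Tl)))
      ((p : ℤ_[p]) ^ M) (pow_ne_zero _ hpp0)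
    rwa [map_pow] at h1
  letI : Field (T ⧸ maximalIdeal T) := Ideal.Quotient.field (maximalIdeal T)
  obtain ⟨M, m, K, G1, f, Fil, h0, hK, hanti, hstab, hq, hfs, hfe, hf0, -, hstep⟩ :=
    s33c_main (k := T ⧸ maximalIdeal T) (Algebra.adjoin ℤ_[p] (pk_heckeSet N S D.Tl)).val
      Subtype.val_injective lam D.ρ (ffc_s32_comm D) (cya_eps p ℤ_[p] ur_p_mem) (p : ℤ_[p])
      hfin hfinc I hI n hmI (by rw [hpalg]; exact hpT) (ffc_rm_rho1 H.ρ I)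
      (ffc_rm_span _ _ (ur_tr_span_eq_top H.ρ H.residual_absIrr))
      (fun g => by
        rw [ffc_rm_det, sst_det_eq_eps H hpT hpS hNS g, halg, ffc_pa_eps_compat])
      (fun g m => by
        obtain ⟨c, hc1, hc2⟩ := ur_approx D H hpS hNS lam₀ hlam₀ g n m
        refine ⟨c, ?_, fun v => ?_⟩
        · rw [ffc_rm_trace, hlam, eq_comm, ← sub_eq_zero, ← map_sub,
            Ideal.Quotient.eq_zero_iff_mem]
          exact hmI hc1
        · have h1 := hc2 v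
          rw [PadicInt.maximalIdeal_eq_span_p, Ideal.span_singleton_pow,
            Submodule.ideal_span_singleton_smul, Submodule.mem_smul_pointwise_iff_exists] at h1
          obtain ⟨y, -, hy⟩ := h1
          exact ⟨y, hy.symm⟩)
      (Ideal.Quotient.factor hI𝔪) (Ideal.Quotient.factor_surjective hI𝔪)
  -- push forward to `Q M`
  obtain ⟨G1', f', Fil', hFil', h0', hK', hanti', hstab', hfs', hfe', -, -⟩ :=
    s33cp_push D.ρ (πQ M) (hπe M) (p : ℤ_[p]) M (hπk M)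
      (fun g => (ffc_rm_rho1 H.ρ I g).mulVec) m K G1 f Fil h0 hK hanti hstab hfs hfe hf0
  refine ⟨M, m, K, G1', f', Fil', h0', hK', hanti', hstab', ?_, hfs', hfe', ?_⟩
  · -- `p • Fil' j ⊆ Fil' (j + 1)`
    intro j y hy
    rw [hFil'] at hy ⊢
    refine s33cp_push_mem (opT := fun x => p • x) (opQ := fun y => p • y) (fun x => ?_)
      (hq p ⟨1, by rw [mul_one]⟩ j) y hy
    exact map_nsmul _ _ _
  · -- the (BLR-step)
    intro τ σ c hc j y hy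
    rw [hFil'] at hy ⊢
    refine s33cp_push_mem
      (opT := fun z i => D.ρ τ (D.ρ σ (z i) - z i) - c • (D.ρ σ (z i) - z i))
      (opQ := fun y => τ • (σ • y - y) - c • (σ • y - y)) (fun x => ?_)
      (hstep τ σ c ?_ j) y hy
    · funext i
      show πQ M (D.ρ τ (D.ρ σ (x i) - x i) - c • (D.ρ σ (x i) - x i)) = _
      rw [map_sub, map_zsmul, hπe, map_sub, hπe]
      rfl
    · rw [s33cq_factor_rho1, s33cq_factor_rho1]
      exact hc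

/-- **[S33-CAR+] at the Tate package of `J₀(N)`, pushed to `J₀(N)[p ^ M]`**, for a proper ideal
`I ⊇ 𝔪_T ^ n`. -/
theorem s33cq_main_I [Finite (ResidueField 𝒪)] [CharZero 𝒪] (hp : p.Prime)
    (hp𝒪 : (p : 𝒪) ∈ maximalIdeal 𝒪) (hpS : p ∈ S)
    (hNS : ∀ q : ℕ, q.Prime → q ∣ N → q ∈ S)
    (H : CuspForm.HeckeGaloisRepDatum N (↑S : Set ℕ) 𝒪 θ T)
    (I : Ideal T) (hI : I ≠ ⊤) (n : ℕ) (hmI : maximalIdeal T ^ n ≤ I) :
    ∃ (M m K : ℕ)
      (G1' : AddSubgroup (Fin m → ↥(Submodule.torsionBy ℤ (ModularCurve.JZero N) ((p : ℤ) ^ M))))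
      (f' : ↥G1' →+ (Fin 2 → T ⧸ I))
      (Fil' : ℕ → AddSubgroup
        (Fin m → ↥(Submodule.torsionBy ℤ (ModularCurve.JZero N) ((p : ℤ) ^ M)))),
      Fil' 0 = G1' ∧ Fil' K = ⊥ ∧ Antitone Fil' ∧
      (∀ (j : ℕ) (g : ff_GQ), ∀ y ∈ Fil' j, g • y ∈ Fil' j) ∧
      (∀ j : ℕ, ∀ y ∈ Fil' j, p • y ∈ Fil' (j + 1)) ∧
      Function.Surjective f' ∧
      (∀ (g : ff_GQ) (y : ↥G1') (hy : g • y.1 ∈ G1'),
        f' ⟨g • y.1, hy⟩ = (ffc_rm_rho1 H.ρ I g).mulVec (f' y)) ∧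
      (∀ (τ σ : ff_GQ) (c : ℤ),
        (ffc_rm_rho1 H.ρ (maximalIdeal T) τ -
            (c : Matrix (Fin 2) (Fin 2) (T ⧸ maximalIdeal T))) *
          (ffc_rm_rho1 H.ρ (maximalIdeal T) σ - 1) = 0 →
        ∀ j, ∀ y ∈ Fil' j, τ • (σ • y - y) - c • (σ • y - y) ∈ Fil' (j + 1)) := by
  haveI : Fact p.Prime := ⟨hp⟩
  exact s33cq_main_D (tjp_tate N p S hpS (tji_nodeE N) (tji_S18 N))
    (tjp_eigenGen N p S hpS (tji_nodeE N) (tji_S18 N))
    (fun M => ↥(Submodule.torsionBy ℤ (ModularCurve.JZero N) ((p : ℤ) ^ M)))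
    (fun M => ffc_s32_proj N p M) (fun M => s33cq_proj_equivariant N p M)
    (fun M => s33cq_proj_eq_zero_iff N p M) hp𝒪 hpS hNS H I hI n hmI

/-- **`s33c_main_Q`**: [S33-CAR+] at the Tate package of `J₀(N)`, pushed to `J₀(N)[p ^ M]`, for
`I = 𝔪_T ^ n`, `0 < n`. -/
theorem s33c_main_Q [Finite (ResidueField 𝒪)] [CharZero 𝒪] (hp : p.Prime)
    (hp𝒪 : (p : 𝒪) ∈ maximalIdeal 𝒪) (hpS : p ∈ S)
    (hNS : ∀ q : ℕ, q.Prime → q ∣ N → q ∈ S)
    (H : CuspForm.HeckeGaloisRepDatum N (↑S : Set ℕ) 𝒪 θ T) (n : ℕ) (hn : 0 < n) :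
    ∃ (M m K : ℕ)
      (G1' : AddSubgroup (Fin m → ↥(Submodule.torsionBy ℤ (ModularCurve.JZero N) ((p : ℤ) ^ M))))
      (f' : ↥G1' →+ (Fin 2 → T ⧸ maximalIdeal T ^ n))
      (Fil' : ℕ → AddSubgroup
        (Fin m → ↥(Submodule.torsionBy ℤ (ModularCurve.JZero N) ((p : ℤ) ^ M)))),
      Fil' 0 = G1' ∧ Fil' K = ⊥ ∧ Antitone Fil' ∧
      (∀ (j : ℕ) (g : ff_GQ), ∀ y ∈ Fil' j, g • y ∈ Fil' j) ∧
      (∀ j : ℕ, ∀ y ∈ Fil' j, p • y ∈ Fil' (j + 1)) ∧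
      Function.Surjective f' ∧
      (∀ (g : ff_GQ) (y : ↥G1') (hy : g • y.1 ∈ G1'),
        f' ⟨g • y.1, hy⟩ = (ffc_rm_rho1 H.ρ (maximalIdeal T ^ n) g).mulVec (f' y)) ∧
      (∀ (τ σ : ff_GQ) (c : ℤ),
        (ffc_rm_rho1 H.ρ (maximalIdeal T) τ -
            (c : Matrix (Fin 2) (Fin 2) (T ⧸ maximalIdeal T))) *
          (ffc_rm_rho1 H.ρ (maximalIdeal T) σ - 1) = 0 →
        ∀ j, ∀ y ∈ Fil' j, τ • (σ • y - y) - c • (σ • y - y) ∈ Fil' (j + 1)) := by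
  refine s33cq_main_I hp hp𝒪 hpS hNS H (maximalIdeal T ^ n) ?_ n le_rfl
  intro h
  have h1 : maximalIdeal T ^ n ≤ maximalIdeal T := Ideal.pow_le_self hn.ne'
  rw [h] at h1
  exact (maximalIdeal.isMaximal T).ne_top (top_le_iff.mp h1)

end Inst

end Fermat.Agent.S33
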