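/-
S33, cell [S33-CAR+] (helper18).  Prefix `s33c_`.  Mathlib + `S33/Car/Subquot.lean`.

The `𝔪`-adic filtration of the `𝔪`-primary part of `Y` modulo `D`.  `R` a commutative ring, `Y` an
`R`-module, `D ≤ Y` a submodule, `𝔪` an ideal, `K : ℕ`:

* `s33c_Z 𝔪 D K    = {z | 𝔪 ^ K • z ⊆ D}`;   `s33c_FilY 𝔪 D K j = 𝔪 ^ j • Z ⊔ D`;
* `s33c_FilY_zero`, `s33c_FilY_top` (`= D` at `j = K`), `s33c_FilY_anti`;
* `s33c_FilY_map`  : an endomorphism preserving `D` and mapping `Z` into `𝔪 ^ i • Z ⊔ D` maps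
  `FilY j` into `FilY (j + i)`;
* `s33c_FilY_stab`, `s33c_FilY_smul`, **`s33c_FilY_blr`** : stability under a linear group action
  preserving `D`, under `𝔪` (one step), and — if `𝔪 = ker (R → k)` is maximal and the action
  satisfies modulo `D` quadratic equations lifting the characteristic polynomials of a spanning
  `ρb : G → GL₂(k)` — under every `x y ∈ ℤ[G]` with `ρb(x) ρb(y) = 0` (one step).
-/
import Mathlib
import Fermat.Agent.S33.Car.Subquot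

set_option autoImplicit false

namespace Fermat.Agent.S33

section Core

variable {R : Type*} [CommRing R] {Y : Type*} [AddCommGroup Y] [Module R Y]

/-- the part of `Y` which `𝔪 ^ K` maps into `D` -/
def s33c_Z (𝔪 : Ideal R) (D : Submodule R Y) (K : ℕ) : Submodule R Y where
  carrier := {z | ∀ a ∈ 𝔪 ^ K, a • z ∈ D}
  add_mem' := fun {z z'} hz hz' a ha => by
    rw [smul_add]
    exact D.add_mem (hz a ha) (hz' a ha)
  zero_mem' := fun a _ => by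
    rw [smul_zero]
    exact D.zero_mem
  smul_mem' := fun b z hz a ha => by
    rw [smul_comm]
    exact D.smul_mem b (hz a ha)

theorem s33c_mem_Z (𝔪 : Ideal R) (D : Submodule R Y) (K : ℕ) (z : Y) :
    z ∈ s33c_Z 𝔪 D K ↔ ∀ a ∈ 𝔪 ^ K, a • z ∈ D := Iff.rfl

theorem s33c_D_le_Z (𝔪 : Ideal R) (D : Submodule R Y) (K : ℕ) : D ≤ s33c_Z 𝔪 D K :=
  fun _ hz a _ => D.smul_mem a hz

/-- the filtration -/
def s33c_FilY (𝔪 : Ideal R) (D : Submodule R Y) (K j : ℕ) : Submodule R Y :=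
  𝔪 ^ j • s33c_Z 𝔪 D K ⊔ D

theorem s33c_FilY_zero (𝔪 : Ideal R) (D : Submodule R Y) (K : ℕ) :
    s33c_FilY 𝔪 D K 0 = s33c_Z 𝔪 D K := by
  unfold s33c_FilY
  rw [pow_zero, Ideal.one_eq_top, Submodule.top_smul, sup_eq_left]
  exact s33c_D_le_Z 𝔪 D K

theorem s33c_FilY_top (𝔪 : Ideal R) (D : Submodule R Y) (K : ℕ) :
    s33c_FilY 𝔪 D K K = D := by
  unfold s33c_FilY
  rw [sup_eq_right, Submodule.smul_le]
  intro a ha z hz
  exact hz a ha

theorem s33c_FilY_anti (𝔪 : Ideal R) (D : Submodule R Y) (K : ℕ) :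
    Antitone (s33c_FilY 𝔪 D K) := fun _ _ h =>
  sup_le_sup_right (Submodule.smul_mono_left (Ideal.pow_le_pow_right h)) D

theorem s33c_D_le_FilY (𝔪 : Ideal R) (D : Submodule R Y) (K j : ℕ) : D ≤ s33c_FilY 𝔪 D K j :=
  le_sup_right

theorem s33c_FilY_le_Z (𝔪 : Ideal R) (D : Submodule R Y) (K j : ℕ) :
    s33c_FilY 𝔪 D K j ≤ s33c_Z 𝔪 D K := by
  rw [← s33c_FilY_zero]
  exact s33c_FilY_anti 𝔪 D K (Nat.zero_le j)

/-- an endomorphism preserving `D` and mapping `Z` into `𝔪 ^ i • Z ⊔ D` shifts the filtration by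
`i` -/
theorem s33c_FilY_map (𝔪 : Ideal R) (D : Submodule R Y) (K : ℕ) (Ψ : Module.End R Y) (i : ℕ)
    (hD : ∀ d ∈ D, Ψ d ∈ D)
    (hZ : ∀ z ∈ s33c_Z 𝔪 D K, Ψ z ∈ s33c_FilY 𝔪 D K i) (j : ℕ) :
    ∀ z ∈ s33c_FilY 𝔪 D K j, Ψ z ∈ s33c_FilY 𝔪 D K (j + i) := by
  have h1 : Submodule.map Ψ (s33c_FilY 𝔪 D K j) ≤ s33c_FilY 𝔪 D K (j + i) := by
    unfold s33c_FilY at hZ ⊢
    rw [Submodule.map_sup, Submodule.map_smul'']
    refine sup_le ?_ ?_
    · calc 𝔪 ^ j • Submodule.map Ψ (s33c_Z 𝔪 D K)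
          ≤ 𝔪 ^ j • (𝔪 ^ i • s33c_Z 𝔪 D K ⊔ D) :=
            Submodule.smul_mono le_rfl (Submodule.map_le_iff_le_comap.mpr hZ)
        _ = 𝔪 ^ j • 𝔪 ^ i • s33c_Z 𝔪 D K ⊔ 𝔪 ^ j • D := Submodule.smul_sup _ _ _
        _ ≤ 𝔪 ^ (j + i) • s33c_Z 𝔪 D K ⊔ D := by
            refine sup_le_sup ?_ Submodule.smul_le_right
            rw [← Submodule.mul_smul, ← pow_add]
    · exact le_sup_of_le_right (Submodule.map_le_iff_le_comap.mpr hD)
  intro z hz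
  exact h1 (Submodule.mem_map_of_mem hz)

variable {G : Type*} [Group G]

theorem s33c_Z_stab (𝔪 : Ideal R) (D : Submodule R Y) (K : ℕ) (α : G →* Module.End R Y)
    (hD : ∀ g, ∀ z ∈ D, α g z ∈ D) (g : G) : ∀ z ∈ s33c_Z 𝔪 D K, α g z ∈ s33c_Z 𝔪 D K := by
  intro z hz a ha
  rw [← map_smul]
  exact hD g _ (hz a ha)

theorem s33c_FilY_stab (𝔪 : Ideal R) (D : Submodule R Y) (K : ℕ) (α : G →* Module.End R Y)
    (hD : ∀ g, ∀ z ∈ D, α g z ∈ D) (j : ℕ) (g : G) :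
    ∀ z ∈ s33c_FilY 𝔪 D K j, α g z ∈ s33c_FilY 𝔪 D K j := by
  have h := s33c_FilY_map 𝔪 D K (α g) 0 (hD g) (fun z hz => by
    rw [s33c_FilY_zero]
    exact s33c_Z_stab 𝔪 D K α hD g z hz) j
  simpa using h

theorem s33c_FilY_smul (𝔪 : Ideal R) (D : Submodule R Y) (K : ℕ) (a : R) (ha : a ∈ 𝔪) (j : ℕ) :
    ∀ z ∈ s33c_FilY 𝔪 D K j, a • z ∈ s33c_FilY 𝔪 D K (j + 1) := by
  have h := s33c_FilY_map 𝔪 D K (LinearMap.lsmul R Y a) 1 (fun d hd => D.smul_mem a hd)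
    (fun z hz => by
      refine le_sup_left (a := 𝔪 ^ 1 • s33c_Z 𝔪 D K) ?_
      rw [pow_one]
      exact Submodule.smul_mem_smul ha hz) j
  exact h

variable {k : Type*} [Field k]

/-- **the BLR step on the filtration** -/
theorem s33c_FilY_blr (lamb : R →+* k) (hmax : (RingHom.ker lamb).IsMaximal)
    (D : Submodule R Y) (K : ℕ) (α : G →* Module.End R Y) (hD : ∀ g, ∀ z ∈ D, α g z ∈ D)
    (ρb : G →* Matrix (Fin 2) (Fin 2) k) (hspan : Submodule.span k (Set.range ρb) = ⊤)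
    (hCH : ∀ g, ∃ c d : R, lamb c = (ρb g).trace ∧ lamb d = (ρb g).det ∧
      ∀ z : Y, α g (α g z) - c • α g z + d • z ∈ D)
    (x y : MonoidAlgebra ℤ G)
    (hxy : MonoidAlgebra.lift ℤ _ G ρb x * MonoidAlgebra.lift ℤ _ G ρb y = 0) (j : ℕ) :
    ∀ z ∈ s33c_FilY (RingHom.ker lamb) D K j,
      MonoidAlgebra.lift ℤ _ G α x (MonoidAlgebra.lift ℤ _ G α y z) ∈
        s33c_FilY (RingHom.ker lamb) D K (j + 1) := by
  have hDx : ∀ (u : MonoidAlgebra ℤ G), ∀ d ∈ D, MonoidAlgebra.lift ℤ _ G α u d ∈ D :=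
    fun u d hd => s33c_lift_mem α D.toAddSubgroup hD u d hd
  have h := s33c_FilY_map (RingHom.ker lamb) D K
    (MonoidAlgebra.lift ℤ _ G α x * MonoidAlgebra.lift ℤ _ G α y) 1
    (fun d hd => hDx x _ (hDx y d hd))
    (fun z hz => by
      rw [Module.End.mul_apply]
      refine s33c_blr_subquot lamb hmax α (s33c_Z (RingHom.ker lamb) D K)
        (s33c_FilY (RingHom.ker lamb) D K 1) (s33c_Z_stab _ D K α hD)
        (s33c_FilY_stab _ D K α hD 1) (fun a ha z hz => ?_) ρb hspan (fun g => ?_) x y hxy z hz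
      · refine le_sup_left (a := RingHom.ker lamb ^ 1 • s33c_Z (RingHom.ker lamb) D K) ?_
        rw [pow_one]
        exact Submodule.smul_mem_smul ha hz
      · obtain ⟨c, d, hc, hd, h⟩ := hCH g
        exact ⟨c, d, hc, hd, fun z _ => s33c_D_le_FilY _ D K 1 (h z)⟩) j
  exact h

end Core

end Fermat.Agent.S33
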