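/-
S33, cell [S33-CAR+] (helper18).  Prefix `s33c_`.  Mathlib + `S33/Car/Core.lean`.

`s33c_assemble` : the abstract assembly.  `Y` an `R`-module with a linear action `α` of `G`, `D ≤ Y`
stable, `𝔪 = ker (lamb : R → k)` maximal, Cayley–Hamilton modulo `D` for a spanning `ρb : G → GL₂(k)`,
an element `ft` with `(1 - ft) 𝔪^K Y ⊆ D`; an equivariant additive map `Q0 : Y → Eb` killing `D` and
`ft • Y`; an equivariant injection `jj : W → Eb` whose image is contained in the image of `Q0`, and an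
equivariant surjection `f : W → V`.  Then `G1 := Q0⁻¹(jj W) ∩ Z` maps onto `V` (through `f`), and
`Fil j := Q0⁻¹(jj W) ∩ (𝔪^j Z + D)` is a filtration of `G1` ending at `D` with the properties of
[S33-CAR+].
-/
import Mathlib
import Fermat.Agent.S33.Car.Core

set_option autoImplicit false

namespace Fermat.Agent.S33

theorem s33c_assemble {R : Type*} [CommRing R] {k : Type*} [Field k] {Y : Type*} [AddCommGroup Y]
    [Module R Y] {G : Type*} [Group G] (lamb : R →+* k) (hmax : (RingHom.ker lamb).IsMaximal)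
    (D : Submodule R Y) (K : ℕ) (α : G →* Module.End R Y) (hD : ∀ g, ∀ z ∈ D, α g z ∈ D)
    (ρb : G →* Matrix (Fin 2) (Fin 2) k) (hspan : Submodule.span k (Set.range ρb) = ⊤)
    (hCH : ∀ g, ∃ c d : R, lamb c = (ρb g).trace ∧ lamb d = (ρb g).det ∧
      ∀ z : Y, α g (α g z) - c • α g z + d • z ∈ D)
    (ft : R) (hft : ∀ a ∈ RingHom.ker lamb ^ K, ∀ y : Y, ((1 - ft) * a) • y ∈ D)
    {Eb : Type*} [AddCommGroup Eb] (Q0 : Y →+ Eb) (hQ0D : ∀ d ∈ D, Q0 d = 0)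
    (hQ0f : ∀ y : Y, Q0 (ft • y) = 0)
    (actE : G → Eb → Eb) (hQ0e : ∀ g y, Q0 (α g y) = actE g (Q0 y))
    {W : Type*} [AddCommGroup W] (actW : G →* AddMonoid.End W) (jj : W →+ Eb)
    (hjj : Function.Injective jj) (hjje : ∀ g w, jj (actW g w) = actE g (jj w))
    (hQ0s : ∀ w : W, ∃ y : Y, Q0 y = jj w)
    {V : Type*} [AddCommGroup V] (actV : G → V → V) (f : W →+ V) (hf : Function.Surjective f)
    (hfe : ∀ g w, f (actW g w) = actV g (f w)) :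
    ∃ (G1 : AddSubgroup Y) (f1 : ↥G1 →+ V) (Fil : ℕ → AddSubgroup Y),
      Fil 0 = G1 ∧ Fil K = D.toAddSubgroup ∧ Antitone Fil ∧
      (∀ (j : ℕ) (g : G), ∀ x ∈ Fil j, α g x ∈ Fil j) ∧
      (∀ q : ℕ, (q : R) ∈ RingHom.ker lamb → ∀ j, ∀ x ∈ Fil j, q • x ∈ Fil (j + 1)) ∧
      Function.Surjective f1 ∧
      (∀ (g : G) (x : ↥G1) (hx : α g x.1 ∈ G1), f1 ⟨α g x.1, hx⟩ = actV g (f1 x)) ∧
      (∀ x : ↥G1, x.1 ∈ D → f1 x = 0) ∧
      (∀ a b : MonoidAlgebra ℤ G,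
        MonoidAlgebra.lift ℤ _ G ρb a * MonoidAlgebra.lift ℤ _ G ρb b = 0 →
        ∀ j, ∀ z ∈ Fil j,
          MonoidAlgebra.lift ℤ _ G α a (MonoidAlgebra.lift ℤ _ G α b z) ∈ Fil (j + 1)) := by
  classical
  let P' : AddSubgroup Y := jj.range.comap Q0
  have hP' : ∀ y, y ∈ P' ↔ ∃ w, jj w = Q0 y := fun y => Iff.rfl
  have hP'stab : ∀ g, ∀ y ∈ P', α g y ∈ P' := by
    intro g y hy
    obtain ⟨w, hw⟩ := (hP' y).mp hy
    exact (hP' _).mpr ⟨actW g w, by rw [hjje, hw, hQ0e]⟩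
  have hDP' : ∀ d ∈ D, d ∈ P' := fun d hd => (hP' d).mpr ⟨0, by rw [map_zero, hQ0D d hd]⟩
  let Fil : ℕ → AddSubgroup Y := fun j =>
    P' ⊓ (s33c_FilY (RingHom.ker lamb) D K j).toAddSubgroup
  have hFil : ∀ j y, y ∈ Fil j ↔ y ∈ P' ∧ y ∈ s33c_FilY (RingHom.ker lamb) D K j :=
    fun j y => Iff.rfl
  let Q0r : ↥(Fil 0) →+ ↥jj.range :=
    (Q0.comp (Fil 0).subtype).codRestrict jj.range (fun x => x.2.1)
  have hQ0r : ∀ x : ↥(Fil 0), ((Q0r x : ↥jj.range) : Eb) = Q0 x.1 := fun x => rfl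
  let f1 : ↥(Fil 0) →+ V :=
    f.comp ((AddMonoidHom.ofInjective hjj).symm.toAddMonoidHom.comp Q0r)
  have hf1 : ∀ (x : ↥(Fil 0)) (w : W), jj w = Q0 x.1 → f1 x = f w := by
    intro x w hw
    show f ((AddMonoidHom.ofInjective hjj).symm (Q0r x)) = f w
    congr 1
    apply hjj
    rw [AddMonoidHom.apply_ofInjective_symm, hQ0r, hw]
  refine ⟨Fil 0, f1, Fil, rfl, ?_, ?_, ?_, ?_, ?_, ?_, ?_, ?_⟩
  · ext y
    rw [hFil, s33c_FilY_top]
    exact ⟨fun h => h.2, fun h => ⟨hDP' y h, h⟩⟩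
  · intro a b hab y hy
    exact ⟨hy.1, s33c_FilY_anti (RingHom.ker lamb) D K hab hy.2⟩
  · intro j g x hx
    exact ⟨hP'stab g x hx.1, s33c_FilY_stab (RingHom.ker lamb) D K α hD j g x hx.2⟩
  · intro q hq j x hx
    refine ⟨P'.nsmul_mem hx.1 q, ?_⟩
    have h1 := s33c_FilY_smul (RingHom.ker lamb) D K (q : R) hq j x hx.2
    rwa [Nat.cast_smul_eq_nsmul] at h1
  · intro v
    obtain ⟨w, rfl⟩ := hf v
    obtain ⟨y, hy⟩ := hQ0s w
    have h1 : Q0 ((1 - ft) • y) = jj w := by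
      rw [sub_smul, one_smul, map_sub, hQ0f, sub_zero, hy]
    have h2 : (1 - ft) • y ∈ Fil 0 := by
      refine ⟨(hP' _).mpr ⟨w, h1.symm⟩, ?_⟩
      show (1 - ft) • y ∈ s33c_FilY (RingHom.ker lamb) D K 0
      rw [s33c_FilY_zero, s33c_mem_Z]
      intro a ha
      rw [smul_smul, mul_comm]
      exact hft a ha y
    exact ⟨⟨(1 - ft) • y, h2⟩, hf1 _ w h1.symm⟩
  · intro g x hx
    obtain ⟨w, hw⟩ := (hP' x.1).mp x.2.1
    rw [hf1 ⟨α g x.1, hx⟩ (actW g w) (by rw [hjje, hw, hQ0e]), hf1 x w hw, hfe]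
  · intro x hx
    rw [hf1 x 0 (by rw [map_zero, hQ0D x.1 hx]), map_zero]
  · intro a b hab j z hz
    exact ⟨s33c_lift_mem α P' hP'stab a _ (s33c_lift_mem α P' hP'stab b z hz.1),
      s33c_FilY_blr lamb hmax D K α hD ρb hspan hCH a b hab j z hz.2⟩

end Fermat.Agent.S33
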