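/-
S33, cell [S33-CAR+] (helper18), abstract part (b).  Prefix `s33c_`.  Mathlib + `FF/Car/BLR.lean`.

`s33c_blr_field` : Boston–Lenstra–Ribet over a field extension `kc ⊆ k`.  `Q` a `kc`-vector space
with a linear action `α` of a group `G`; `ρb : G → GL₂(k)` spans `M₂(k)`, its traces and determinants
lie in `kc`, and every `g` satisfies on `Q` the characteristic polynomial of `ρb g`.  Then every
relation `ρb(x) ρb(y) = 0` (`x y ∈ ℤ[G]`) of `M₂(k)` holds on `Q`: `α(x) α(y) = 0`.
[`ffc_blr` over `k` on `k ⊗_{kc} Q`, and `Q → k ⊗_{kc} Q` is injective.]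
-/
import Mathlib
import Fermat.Agent.FF.Car.BLR

set_option autoImplicit false

namespace Fermat.Agent.S33

open scoped TensorProduct
open Fermat.Agent.FF

/-- `q ↦ 1 ⊗ q` is injective for a field extension -/
theorem s33c_one_tmul_injective {kc k : Type*} [Field kc] [Field k] [Algebra kc k]
    {Q : Type*} [AddCommGroup Q] [Module kc Q] (q : Q) (hq : (1 : k) ⊗ₜ[kc] q = 0) : q = 0 := by
  have hker : LinearMap.ker (Algebra.linearMap kc k) = ⊥ := by
    rw [LinearMap.ker_eq_bot]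
    exact (algebraMap kc k).injective
  obtain ⟨r, hr⟩ := LinearMap.exists_leftInverse_of_injective (Algebra.linearMap kc k) hker
  have hr1 : r 1 = 1 := by
    have := LinearMap.congr_fun hr 1
    simpa using this
  have h1 := congrArg (fun z => TensorProduct.lid kc Q (r.rTensor Q z)) hq
  simpa [hr1] using h1

/-- **BLR over a field extension.** -/
theorem s33c_blr_field {kc k : Type*} [Field kc] [Field k] [Algebra kc k]
    {Q : Type*} [AddCommGroup Q] [Module kc Q] {G : Type*} [Group G]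
    (α : G →* Module.End kc Q) (ρb : G →* Matrix (Fin 2) (Fin 2) k)
    (hspan : Submodule.span k (Set.range ρb) = ⊤)
    (hCH : ∀ g, ∃ a d : kc, algebraMap kc k a = (ρb g).trace ∧ algebraMap kc k d = (ρb g).det ∧
      α g * α g - a • α g + d • (1 : Module.End kc Q) = 0)
    (x y : MonoidAlgebra ℤ G)
    (hxy : MonoidAlgebra.lift ℤ _ G ρb x * MonoidAlgebra.lift ℤ _ G ρb y = 0) :
    MonoidAlgebra.lift ℤ _ G α x * MonoidAlgebra.lift ℤ _ G α y = 0 := by
  let bc : Module.End kc Q →ₐ[kc] Module.End k (k ⊗[kc] Q) := Module.End.baseChangeHom kc k Q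
  have hbc : ∀ φ : Module.End kc Q, ∀ (c : k) (q : Q), bc φ (c ⊗ₜ[kc] q) = c ⊗ₜ[kc] φ q :=
    fun φ c q => LinearMap.baseChange_tmul _ _ _
  let β : G →* Module.End k (k ⊗[kc] Q) := (bc : Module.End kc Q →* _).comp α
  have hβ : ∀ g, β g = bc (α g) := fun _ => rfl
  obtain ⟨Φ, hΦ⟩ : ∃ Φ : Matrix (Fin 2) (Fin 2) k →ₐ[k] Module.End k (k ⊗[kc] Q),
      ∀ g, Φ (ρb g) = β g := by
    refine ffc_blr (C := Module.End k (k ⊗[kc] Q)) ρb β hspan (fun g => ?_)
    obtain ⟨a, d, ha, hd, h⟩ := hCH g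
    have h1 := congrArg bc h
    rw [map_zero, map_add, map_sub, map_mul, map_smul, map_smul, map_one] at h1
    rw [hβ, ← ha, ← hd, algebraMap_smul, algebraMap_smul]
    exact h1
  -- the two ring homomorphisms `ℤ[G] → End_k (k ⊗ Q)`
  let F1 : MonoidAlgebra ℤ G →+* Module.End k (k ⊗[kc] Q) :=
    Φ.toRingHom.comp (MonoidAlgebra.lift ℤ _ G ρb).toRingHom
  let F2 : MonoidAlgebra ℤ G →+* Module.End k (k ⊗[kc] Q) :=
    bc.toRingHom.comp (MonoidAlgebra.lift ℤ _ G α).toRingHom
  have hF : F1 = F2 := by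
    apply MonoidAlgebra.ringHom_ext
    · intro r
      have h1 : (MonoidAlgebra.single (1 : G) r : MonoidAlgebra ℤ G) = (r : MonoidAlgebra ℤ G) := by
        rw [MonoidAlgebra.intCast_def, Int.cast_id]
      rw [h1, map_intCast, map_intCast]
    · intro g
      show Φ (MonoidAlgebra.lift ℤ _ G ρb (MonoidAlgebra.single g 1)) =
        bc (MonoidAlgebra.lift ℤ _ G α (MonoidAlgebra.single g 1))
      rw [MonoidAlgebra.lift_single, MonoidAlgebra.lift_single, one_smul, one_smul, hΦ, hβ]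
  have h2 : bc (MonoidAlgebra.lift ℤ _ G α x * MonoidAlgebra.lift ℤ _ G α y) = 0 := by
    have h3 : F2 (x * y) = F1 (x * y) := by rw [hF]
    have h4 : F1 (x * y) = Φ (MonoidAlgebra.lift ℤ _ G ρb x * MonoidAlgebra.lift ℤ _ G ρb y) := by
      show Φ (MonoidAlgebra.lift ℤ _ G ρb (x * y)) = _
      rw [map_mul]
    have h5 : F2 (x * y) = bc (MonoidAlgebra.lift ℤ _ G α x * MonoidAlgebra.lift ℤ _ G α y) := by
      show bc (MonoidAlgebra.lift ℤ _ G α (x * y)) = _
      rw [map_mul]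
    rw [← h5, h3, h4, hxy, map_zero]
  apply LinearMap.ext
  intro q
  rw [LinearMap.zero_apply]
  apply s33c_one_tmul_injective (kc := kc) (k := k)
  rw [← hbc, h2, LinearMap.zero_apply]

end Fermat.Agent.S33
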