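/-
S33, cell [S33-CAR+], leaf (L1) (helper22; prefix `s33cp_`; Mathlib only): THE `𝔪`-PRIMARY PART OF A
FINITE MODULE, WITHOUT IDEMPOTENTS.

For a commutative ring `R`, an ideal `𝔪` and an `R`-module `Y` which is finite as a set:

* `s33cp_exists_e` : for every `K0` there are `K ≥ K0` and `e : R` with `1 - e ∈ 𝔪 ^ K` and
  `𝔪 ^ K • (e • Y) = 0`  (the chain `𝔪 ^ K Y` stabilises at `N = 𝔪 N`; Nakayama gives `s ≡ 1 mod 𝔪`
  with `s N = 0`; `e := 1 - (1 - s) ^ K = s * ∑ (1 - s) ^ i`);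
* `s33cp_prim` : the submodule `Y[𝔪 ^ K] = {y | 𝔪 ^ K y = 0}`.
-/
import Mathlib

set_option autoImplicit false

namespace Fermat.Agent.S33

section Primary

variable {R : Type*} [CommRing R] (𝔪 : Ideal R) {Y : Type*} [AddCommGroup Y] [Module R Y]

/-- **(L1)**: the "idempotent up to `𝔪 ^ K`" of a finite module. -/
theorem s33cp_exists_e [Finite Y] (K0 : ℕ) :
    ∃ K : ℕ, K0 ≤ K ∧ ∃ e : R, 1 - e ∈ 𝔪 ^ K ∧ ∀ a ∈ 𝔪 ^ K, ∀ y : Y, a • (e • y) = 0 := by
  classical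
  -- the chain `𝔪 ^ K Y` stabilises
  let f : ℕ →o (Submodule R Y)ᵒᵈ :=
    { toFun := fun K => OrderDual.toDual ((𝔪 ^ K) • (⊤ : Submodule R Y))
      monotone' := fun a b hab =>
        OrderDual.toDual_le_toDual.mpr (Submodule.smul_mono_left (Ideal.pow_le_pow_right hab)) }
  obtain ⟨n, hn⟩ := IsArtinian.monotone_stabilizes f
  have hn' : ∀ m, n ≤ m → (𝔪 ^ n) • (⊤ : Submodule R Y) = (𝔪 ^ m) • (⊤ : Submodule R Y) :=
    fun m hm => congrArg OrderDual.ofDual (hn m hm)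
  set K := max K0 n with hK
  refine ⟨K, le_max_left _ _, ?_⟩
  set N : Submodule R Y := (𝔪 ^ K) • (⊤ : Submodule R Y) with hN
  have hNN : N ≤ 𝔪 • N := by
    rw [hN, ← Submodule.mul_smul, ← pow_succ', ← hn' K (le_max_right _ _),
      ← hn' (K + 1) ((le_max_right _ _).trans (Nat.le_succ K))]
  have hfg : N.FG := IsNoetherian.noetherian N
  obtain ⟨s, hs1, hsN⟩ := Submodule.exists_sub_one_mem_and_smul_eq_zero_of_fg_of_le_smul 𝔪 N hfg hNN
  have hs1' : 1 - s ∈ 𝔪 := by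
    have := 𝔪.neg_mem hs1
    rwa [neg_sub] at this
  refine ⟨1 - (1 - s) ^ K, ?_, fun a ha y => ?_⟩
  · rw [sub_sub_cancel]
    exact Ideal.pow_mem_pow hs1' K
  · have h1 : (1 : R) - (1 - s) ^ K = (∑ i ∈ Finset.range K, (1 - s) ^ i) * s := by
      have := geom_sum_mul_neg (1 - s) K
      rw [sub_sub_cancel] at this
      exact this.symm
    have h2 : a • y ∈ N := Submodule.smul_mem_smul ha Submodule.mem_top
    rw [h1, smul_comm, mul_smul, hsN _ h2, smul_zero]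

/-- the `𝔪 ^ K`-torsion of a module -/
def s33cp_prim (K : ℕ) : Submodule R Y where
  carrier := {y | ∀ a ∈ 𝔪 ^ K, a • y = 0}
  add_mem' := fun {x y} hx hy a ha => by rw [smul_add, hx a ha, hy a ha, add_zero]
  zero_mem' := fun a _ => smul_zero a
  smul_mem' := fun c x hx a ha => by rw [smul_comm, hx a ha, smul_zero]

theorem s33cp_mem_prim (K : ℕ) (y : Y) : y ∈ s33cp_prim 𝔪 (Y := Y) K ↔ ∀ a ∈ 𝔪 ^ K, a • y = 0 :=
  Iff.rfl

end Primary

end Fermat.Agent.S33
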