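/-
S33, cell [S33-CAR+], leaf (a) of helper18's design #4066 (written by helper22 as second, lead
arbitration #4069; prefix `s33c_`): THE LIFTED IDEMPOTENT OF A FINITE QUOTIENT RING.

`s33c_idem` : for ideals `𝔪`, `𝔞` of a commutative ring `R` with `R ⧸ 𝔞` finite there are `K` and
`f ∈ 𝔪` with `f² - f ∈ 𝔞` and `(1 - f) · 𝔪 ^ K ⊆ 𝔞`.  (From `s33cp_exists_e`, `Car/Primary.lean`,
applied to the finite `R`-module `R ⧸ 𝔞`; no idempotent-lifting, no Artinian structure theory.)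
`s33c_idem'` also records `f ∈ 𝔪 ^ K` and `1 ≤ K`.
-/
import Mathlib
import Fermat.Agent.S33.Car.Primary

set_option autoImplicit false

namespace Fermat.Agent.S33

section Idem

variable {R : Type*} [CommRing R]

/-- strong form: `f ∈ 𝔪 ^ K`, `K ≥ K0`. -/
theorem s33c_idem' (𝔪 𝔞 : Ideal R) [Finite (R ⧸ 𝔞)] (K0 : ℕ) :
    ∃ (K : ℕ) (f : R), K0 ≤ K ∧ f ∈ 𝔪 ^ K ∧ f * f - f ∈ 𝔞 ∧ ∀ a ∈ 𝔪 ^ K, (1 - f) * a ∈ 𝔞 := by
  obtain ⟨K, hK, e, he1, he2⟩ := s33cp_exists_e 𝔪 (Y := R ⧸ 𝔞) K0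
  have key : ∀ a ∈ 𝔪 ^ K, e * a ∈ 𝔞 := by
    intro a ha
    have h := he2 a ha (Ideal.Quotient.mk 𝔞 1)
    rw [← Ideal.Quotient.mk_eq_mk, ← Submodule.Quotient.mk_smul, ← Submodule.Quotient.mk_smul,
      Submodule.Quotient.mk_eq_zero, smul_eq_mul, smul_eq_mul, mul_one] at h
    rwa [mul_comm]
  refine ⟨K, 1 - e, hK, he1, ?_, fun a ha => ?_⟩
  · have h1 := key (1 - e) he1
    have h2 : (1 - e) * (1 - e) - (1 - e) = -(e * (1 - e)) := by ring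
    rw [h2]
    exact 𝔞.neg_mem h1
  · rw [sub_sub_cancel]
    exact key a ha

/-- **(a)**: the lifted idempotent. -/
theorem s33c_idem (𝔪 𝔞 : Ideal R) [Finite (R ⧸ 𝔞)] :
    ∃ (K : ℕ) (f : R), f ∈ 𝔪 ∧ f * f - f ∈ 𝔞 ∧ ∀ a ∈ 𝔪 ^ K, (1 - f) * a ∈ 𝔞 := by
  obtain ⟨K, f, hK, hf, h1, h2⟩ := s33c_idem' 𝔪 𝔞 1
  exact ⟨K, f, Ideal.pow_le_self (by omega) hf, h1, h2⟩

end Idem

end Fermat.Agent.S33
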