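/-
S33, cell [S33-CAR+] (helper18; design #4066, lead arbitration #4069).  Prefix `s33c_`.
-/
import Mathlib
import Fermat.Agent.FF.Car.InstAbs
import Fermat.Agent.S33.Car.Idem
import Fermat.Agent.S33.Car.BlrField
import Fermat.Agent.S33.Car.Assemble

set_option autoImplicit false
set_option linter.style.haveILetI false

noncomputable section

namespace Fermat.Agent.S33

open scoped TensorProduct
open Fermat.Agent.FF

/-- the reduction of a matrix representation along a ring homomorphism -/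
def s33c_rhobar {A k : Type*} [CommRing A] [CommRing k] (π : A →+* k) {G : Type*} [Group G]
    (ρ₁ : G →* Matrix (Fin 2) (Fin 2) A) : G →* Matrix (Fin 2) (Fin 2) k :=
  (RingHom.toMonoidHom (π.mapMatrix (m := Fin 2))).comp ρ₁

theorem s33c_rhobar_apply {A k : Type*} [CommRing A] [CommRing k] (π : A →+* k) {G : Type*}
    [Group G] (ρ₁ : G →* Matrix (Fin 2) (Fin 2) A) (g : G) :
    s33c_rhobar π ρ₁ g = π.mapMatrix (ρ₁ g) := rfl


/-- the reduction of a spanning representation along a surjection spans -/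
theorem s33c_span_rhobar {A k : Type*} [CommRing A] [CommRing k] (π : A →+* k)
    (hπ : Function.Surjective π) {G : Type*} [Group G] (ρ₁ : G →* Matrix (Fin 2) (Fin 2) A)
    (hspan : Submodule.span A (Set.range ρ₁) = ⊤) :
    Submodule.span k (Set.range (s33c_rhobar π ρ₁)) = ⊤ := by
  rw [eq_top_iff]
  rintro X -
  obtain ⟨X', rfl⟩ : ∃ X' : Matrix (Fin 2) (Fin 2) A, π.mapMatrix X' = X := by
    choose f hf using fun i j => hπ (X i j)
    exact ⟨Matrix.of f, by ext i j; simp [hf]⟩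
  have hX' : X' ∈ Submodule.span A (Set.range ρ₁) := hspan ▸ Submodule.mem_top
  induction hX' using Submodule.span_induction with
  | mem X hX =>
    obtain ⟨g, rfl⟩ := hX
    exact Submodule.subset_span ⟨g, rfl⟩
  | zero =>
    rw [map_zero]
    exact Submodule.zero_mem _
  | add X Y _ _ hX hY =>
    rw [map_add]
    exact Submodule.add_mem _ hX hY
  | smul c X _ hX =>
    have h1 : π.mapMatrix (c • X) = π c • π.mapMatrix X := by
      ext i j
      simp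
    rw [h1]
    exact Submodule.smul_mem _ _ hX

theorem s33c_rhobar_trace {A k : Type*} [CommRing A] [CommRing k] (π : A →+* k) {G : Type*}
    [Group G] (ρ₁ : G →* Matrix (Fin 2) (Fin 2) A) (g : G) :
    (s33c_rhobar π ρ₁ g).trace = π (ρ₁ g).trace := by
  rw [s33c_rhobar_apply, AddMonoidHom.map_trace π]
  rfl

theorem s33c_rhobar_det {A k : Type*} [CommRing A] [CommRing k] (π : A →+* k) {G : Type*}
    [Group G] (ρ₁ : G →* Matrix (Fin 2) (Fin 2) A) (g : G) :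
    (s33c_rhobar π ρ₁ g).det = π (ρ₁ g).det := by
  rw [s33c_rhobar_apply, RingHom.map_det]

/-- an element which is idempotent and nilpotent modulo a submodule acts into it -/
theorem s33c_idem_nilp {𝔸 X : Type*} [CommRing 𝔸] [AddCommGroup X] [Module 𝔸 X]
    (P : Submodule 𝔸 X) (φ : 𝔸) (h2 : ∀ ξ : X, (φ * φ - φ) • ξ ∈ P) (m : ℕ)
    (hm : ∀ ξ : X, φ ^ m • ξ ∈ P) (ξ : X) : φ • ξ ∈ P := by
  have key : ∀ (k : ℕ) (ξ : X), φ ^ (k + 1) • ξ - φ • ξ ∈ P := by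
    intro k
    induction k with
    | zero =>
      intro ξ
      rw [zero_add, pow_one, sub_self]
      exact P.zero_mem
    | succ k ih =>
      intro ξ
      have h3 : φ ^ (k + 1 + 1) • ξ - φ • ξ =
          (φ ^ (k + 1) • (φ • ξ) - φ • (φ • ξ)) + (φ * φ - φ) • ξ := by
        rw [pow_succ (φ) (k + 1), mul_smul, sub_smul, mul_smul]
        abel
      rw [h3]
      exact P.add_mem (ih (φ • ξ)) (h2 ξ)
  have h4 : φ ^ (m + 1) • ξ ∈ P := by
    rw [pow_succ', mul_smul]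
    exact P.smul_mem φ (hm ξ)
  have h5 : φ • ξ = φ ^ (m + 1) • ξ - (φ ^ (m + 1) • ξ - φ • ξ) := by abel
  rw [h5]
  exact P.sub_mem h4 (key m ξ)

section Main

variable {Λ : Type} [CommRing Λ]
  {T : Type} [CommRing T] [Algebra Λ T]
  {Tp : Type} [AddCommGroup Tp] [Module Λ Tp]
  {𝕋c : Type} [CommRing 𝕋c] [Algebra Λ 𝕋c]

/-- **[S33-CAR+].** -/
theorem s33c_main [IsLocalRing T] [IsNoetherianRing T] [Module.Flat Λ T]
    [Module.Free Λ Tp] [Module.Finite Λ Tp] [Module.Finite Λ 𝕋c]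
    (ι : 𝕋c →ₐ[Λ] Module.End Λ Tp) (hι : Function.Injective ι) (lam : 𝕋c →ₐ[Λ] T)
    {G : Type} [Group G] (ρ : G →* Module.End Λ Tp) (hcomm : ∀ c g, Commute (ι c) (ρ g))
    (ε : G →* Λ) (ϖ : Λ)
    (hfin : ∀ M : ℕ, Finite (T ⧸ Ideal.span {algebraMap Λ T ϖ ^ M}))
    (hfinc : ∀ M : ℕ, Finite (𝕋c ⧸ Ideal.span {algebraMap Λ 𝕋c ϖ ^ M}))
    (I : Ideal T) (hI : I ≠ ⊤) (n : ℕ) (hmI : IsLocalRing.maximalIdeal T ^ n ≤ I)
    (hϖ : algebraMap Λ T ϖ ∈ IsLocalRing.maximalIdeal T)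
    (ρ₁ : G →* Matrix (Fin 2) (Fin 2) (T ⧸ I))
    (hspan : Submodule.span (T ⧸ I) (Set.range ρ₁) = ⊤)
    (hdet : ∀ g, Ideal.Quotient.mk I (algebraMap Λ T (ε g)) = (ρ₁ g).det)
    (happrox : ∀ (g : G) (m : ℕ), ∃ c : 𝕋c, Ideal.Quotient.mk I (lam c) = (ρ₁ g).trace ∧
      ∀ v, ∃ y, (ι c - (ρ g + ε g • ρ g⁻¹)) v = ϖ ^ m • y)
    {k : Type} [Field k] (π : T ⧸ I →+* k) (hπ : Function.Surjective π) :
    ∃ (M m K : ℕ) (G1 : AddSubgroup (Fin m → Tp)) (f : ↥G1 →+ (Fin 2 → T ⧸ I))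
      (Fil : ℕ → AddSubgroup (Fin m → Tp)),
      Fil 0 = G1 ∧
      (∀ x, x ∈ Fil K ↔ ∀ i, ∃ y, x i = ϖ ^ M • y) ∧
      Antitone Fil ∧
      (∀ (j : ℕ) (g : G), ∀ x ∈ Fil j, (fun i => ρ g (x i)) ∈ Fil j) ∧
      (∀ q : ℕ, (∃ u : Λ, (q : Λ) = ϖ * u) → ∀ j, ∀ x ∈ Fil j, q • x ∈ Fil (j + 1)) ∧
      Function.Surjective f ∧
      (∀ (g : G) (x : ↥G1) (hx : (fun i => ρ g (x.1 i)) ∈ G1),
        f ⟨fun i => ρ g (x.1 i), hx⟩ = (ρ₁ g).mulVec (f x)) ∧
      (∀ x : ↥G1, x.1 ∈ Fil K → f x = 0) ∧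
      (∀ a b : MonoidAlgebra ℤ G,
        MonoidAlgebra.lift ℤ _ G (s33c_rhobar π ρ₁) a *
          MonoidAlgebra.lift ℤ _ G (s33c_rhobar π ρ₁) b = 0 →
        ∀ j, ∀ z ∈ Fil j,
          (fun i => MonoidAlgebra.lift ℤ _ G ρ a (MonoidAlgebra.lift ℤ _ G ρ b (z i))) ∈
            Fil (j + 1)) ∧
      (∀ (τ σ : G) (c : ℤ),
        (π.mapMatrix (ρ₁ τ) - (c : Matrix (Fin 2) (Fin 2) k)) * (π.mapMatrix (ρ₁ σ) - 1) = 0 →
        ∀ j, ∀ z ∈ Fil j,
          (fun i => ρ τ (ρ σ (z i) - z i) - c • (ρ σ (z i) - z i)) ∈ Fil (j + 1)) := by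
  classical
  letI := ffc_ia_module (T := T) ι
  haveI := ffc_ia_isScalarTower (T := T) ι
  haveI : Module.Finite (T ⊗[Λ] 𝕋c) (T ⊗[Λ] Tp) :=
    Module.Finite.of_restrictScalars_finite T _ _
  haveI : IsNoetherianRing (T ⊗[Λ] 𝕋c) := IsNoetherianRing.of_finite T _
  haveI : Nontrivial (T ⧸ I) := Ideal.Quotient.nontrivial_iff.mpr hI
  haveI : IsLocalRing (T ⧸ I) :=
    IsLocalRing.of_surjective' (Ideal.Quotient.mk I) Ideal.Quotient.mk_surjective
  have hϖn : algebraMap Λ T ϖ ^ n ∈ I := hmI (Ideal.pow_mem_pow hϖ n)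
  -- the residue map
  have hπker : ∀ t : T, π (Ideal.Quotient.mk I t) = 0 ↔ t ∈ IsLocalRing.maximalIdeal T := by
    have hχ : Function.Surjective (π.comp (Ideal.Quotient.mk I)) :=
      hπ.comp Ideal.Quotient.mk_surjective
    have h1 := IsLocalRing.eq_maximalIdeal (RingHom.ker_isMaximal_of_surjective _ hχ)
    intro t
    rw [← h1, RingHom.mem_ker]
    rfl
  -- ===== the first part: as in `ffc_inst_main` =====
  let ν : (T ⊗[Λ] 𝕋c) →+* (T ⧸ I) := (Ideal.Quotient.mk I).comp (ffc_ia_mu lam).toRingHom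
  have hν_tmul : ∀ (t : T) (c : 𝕋c), ν (t ⊗ₜ[Λ] c) = Ideal.Quotient.mk I (t * lam c) := by
    intro t c
    show Ideal.Quotient.mk I (ffc_ia_mu lam (t ⊗ₜ[Λ] c)) = _
    rw [ffc_ia_mu_tmul]
  have hν_alg : ∀ t : T, ν (algebraMap T (T ⊗[Λ] 𝕋c) t) = Ideal.Quotient.mk I t := by
    intro t
    show Ideal.Quotient.mk I (ffc_ia_mu lam (algebraMap T (T ⊗[Λ] 𝕋c) t)) = _
    rw [AlgHom.commutes]
    rfl
  have hν : Function.Surjective ν := by
    intro y
    obtain ⟨t, rfl⟩ := Ideal.Quotient.mk_surjective y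
    exact ⟨algebraMap T (T ⊗[Λ] 𝕋c) t, hν_alg t⟩
  have hfaith : ∀ a : T ⊗[Λ] 𝕋c, (∀ x : T ⊗[Λ] Tp, a • x = 0) → a = 0 := by
    intro a ha
    apply ffc_ia_Theta_injective (T := T) ι hι
    rw [map_zero]
    exact LinearMap.ext ha
  have hϖν : algebraMap T (T ⊗[Λ] 𝕋c) (algebraMap Λ T ϖ ^ n) ∈ RingHom.ker ν := by
    rw [RingHom.mem_ker, hν_alg, Ideal.Quotient.eq_zero_iff_mem]
    exact hϖn
  have hkey : ∀ (N : ℕ) (z : T ⊗[Λ] Tp), (algebraMap Λ T ϖ ^ (n * N)) • z ∈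
      ((RingHom.ker ν) ^ N) • (⊤ : Submodule (T ⊗[Λ] 𝕋c) (T ⊗[Λ] Tp)) := by
    intro N z
    have h1 : (algebraMap Λ T ϖ ^ (n * N)) • z =
        ((algebraMap T (T ⊗[Λ] 𝕋c) (algebraMap Λ T ϖ ^ n)) ^ N) • z := by
      rw [← map_pow (algebraMap T (T ⊗[Λ] 𝕋c)), algebraMap_smul, ← pow_mul]
    rw [h1]
    exact Submodule.smul_mem_smul (Ideal.pow_mem_pow hϖν N) Submodule.mem_top
  have hCH : ∀ (N : ℕ) (g : G), ∃ a d : T ⊗[Λ] 𝕋c, ν a = (ρ₁ g).trace ∧ ν d = (ρ₁ g).det ∧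
      ∀ x : T ⊗[Λ] Tp, ffc_ia_rhoX (T := T) ι ρ hcomm g (ffc_ia_rhoX (T := T) ι ρ hcomm g x) -
        a • ffc_ia_rhoX (T := T) ι ρ hcomm g x + d • x ∈
        ((RingHom.ker ν) ^ N) • (⊤ : Submodule (T ⊗[Λ] 𝕋c) (T ⊗[Λ] Tp)) := by
    intro N g
    obtain ⟨c, hc1, hc2⟩ := happrox g (n * N)
    refine ⟨(1 : T) ⊗ₜ[Λ] c, algebraMap Λ (T ⊗[Λ] 𝕋c) (ε g), ?_, ?_, fun x => ?_⟩
    · rw [hν_tmul, one_mul, hc1]
    · rw [IsScalarTower.algebraMap_apply Λ T (T ⊗[Λ] 𝕋c), hν_alg, hdet]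
    · obtain ⟨z, hz⟩ := ffc_ia_CH (T := T) ι ρ hcomm ε ϖ g (n * N) c hc2 x
      rw [hz]
      exact hkey N z
  obtain ⟨N, s, W, iW, actW, j, f, hj, hje, hf, hfe⟩ :=
    ffc_mod_abs ν hν hfaith (ffc_ia_rhoX (T := T) ι ρ hcomm) ρ₁ hspan hCH
  haveI := hfin (n * N)
  obtain ⟨r, t, ht⟩ := ffc_ia_reps (Λ := Λ) (Tp := Tp) (algebraMap Λ T ϖ ^ (n * N))
  let P : Submodule (T ⊗[Λ] 𝕋c) (T ⊗[Λ] Tp) :=
    ((RingHom.ker ν) ^ N) • (⊤ : Submodule (T ⊗[Λ] 𝕋c) (T ⊗[Λ] Tp))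
  -- the three properties of `mkQ ∘ q₀`
  have hq_surj : ∀ y : (T ⊗[Λ] Tp) ⧸ P, ∃ x : Fin r → Tp,
      P.mkQ (ffc_ia_q0 (Λ := Λ) t x) = y := by
    intro y
    obtain ⟨x, rfl⟩ := P.mkQ_surjective y
    obtain ⟨y', z, hx⟩ := ht x
    refine ⟨y', ?_⟩
    rw [ffc_ia_q0_apply, hx, map_add, left_eq_add]
    exact (Submodule.Quotient.mk_eq_zero P).mpr (hkey N z)
  have hq_equiv : ∀ (g : G) (x : Fin r → Tp),
      P.mkQ (ffc_ia_q0 (Λ := Λ) t (fun i => ρ g (x i))) =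
        ffc_quotAct ((RingHom.ker ν) ^ N) (ffc_ia_rhoX (T := T) ι ρ hcomm) g
          (P.mkQ (ffc_ia_q0 (Λ := Λ) t x)) := by
    intro g x
    rw [ffc_ia_q0_apply, ffc_ia_q0_apply]
    show _ = P.mkQ (ffc_ia_rhoX (T := T) ι ρ hcomm g (∑ i, t i ⊗ₜ[Λ] x i))
    rw [map_sum (ffc_ia_rhoX (T := T) ι ρ hcomm g)]
    refine congrArg P.mkQ (Finset.sum_congr rfl fun i _ => ?_)
    rw [ffc_ia_rhoX_apply, LinearMap.baseChange_tmul]
  have hq_kill : ∀ x : Fin r → Tp, (∀ i, ∃ y, x i = ϖ ^ (n * N) • y) →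
      P.mkQ (ffc_ia_q0 (Λ := Λ) t x) = 0 := by
    intro x hx
    rw [ffc_ia_q0_apply, map_sum]
    refine Finset.sum_eq_zero fun i _ => ?_
    obtain ⟨y, hy⟩ := hx i
    have h1 : t i ⊗ₜ[Λ] (ϖ ^ (n * N) • y) = (algebraMap Λ T ϖ ^ (n * N)) • (t i ⊗ₜ[Λ] y) := by
      rw [TensorProduct.tmul_smul, ← map_pow, algebraMap_smul]
    rw [hy, h1]
    exact (Submodule.Quotient.mk_eq_zero P).mpr (hkey N _)
  -- ===== the Hecke algebra side =====
  let lamb : 𝕋c →+* k := π.comp ((Ideal.Quotient.mk I).comp (lam : 𝕋c →+* T))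
  have hlamb : ∀ c : 𝕋c, lamb c = π (Ideal.Quotient.mk I (lam c)) := fun c => rfl
  have hlamb_alg : ∀ z : Λ, lamb (algebraMap Λ 𝕋c z) = π (Ideal.Quotient.mk I (algebraMap Λ T z)) := by
    intro z
    rw [hlamb, AlgHom.commutes]
  have hϖker : algebraMap Λ 𝕋c ϖ ∈ RingHom.ker lamb := by
    rw [RingHom.mem_ker, hlamb_alg]
    exact (hπker _).mpr hϖ
  have hmax : (RingHom.ker lamb).IsMaximal := by
    haveI : (RingHom.ker lamb).IsPrime := RingHom.ker_isPrime lamb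
    have hle : Ideal.span {algebraMap Λ 𝕋c ϖ ^ 1} ≤ RingHom.ker lamb := by
      rw [Ideal.span_le, Set.singleton_subset_iff, pow_one]
      exact hϖker
    haveI := hfinc 1
    haveI : Finite (𝕋c ⧸ RingHom.ker lamb) :=
      Finite.of_surjective (Ideal.Quotient.factor hle) (Ideal.Quotient.factor_surjective hle)
    exact Ideal.Quotient.maximal_of_isField _ (Finite.isDomain_to_isField _)
  haveI := hfinc (n * N)
  obtain ⟨K, ft, hftm, hft2, hftK⟩ :=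
    s33c_idem (RingHom.ker lamb) (Ideal.span {algebraMap Λ 𝕋c ϖ ^ (n * N)})
  have hlamft : lam ft ∈ IsLocalRing.maximalIdeal T := (hπker _).mp hftm
  -- `1 ⊗ ft` acts as `0` on `X ⧸ P`
  have hφ : ∀ ξ : T ⊗[Λ] Tp, ((1 : T) ⊗ₜ[Λ] ft : T ⊗[Λ] 𝕋c) • ξ ∈ P := by
    intro ξ
    refine s33c_idem_nilp P ((1 : T) ⊗ₜ[Λ] ft) (fun ξ => ?_) (n * N) (fun ξ => ?_) ξ
    · obtain ⟨u, hu⟩ := Ideal.mem_span_singleton'.mp hft2
      have h1 : ((1 : T) ⊗ₜ[Λ] ft : T ⊗[Λ] 𝕋c) * ((1 : T) ⊗ₜ[Λ] ft) - (1 : T) ⊗ₜ[Λ] ft =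
          (algebraMap Λ T ϖ ^ (n * N)) • ((1 : T) ⊗ₜ[Λ] u : T ⊗[Λ] 𝕋c) := by
        rw [Algebra.TensorProduct.tmul_mul_tmul, one_mul, ← TensorProduct.tmul_sub, ← hu,
          ← map_pow, mul_comm, ← Algebra.smul_def, ← TensorProduct.smul_tmul,
          TensorProduct.smul_tmul', Algebra.smul_def, mul_one, smul_eq_mul, mul_one, map_pow]
      rw [h1, smul_assoc]
      exact hkey N _
    · have h1 : ((1 : T) ⊗ₜ[Λ] ft : T ⊗[Λ] 𝕋c) ^ n ∈ RingHom.ker ν := by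
        rw [RingHom.mem_ker, map_pow, hν_tmul, one_mul, ← map_pow, Ideal.Quotient.eq_zero_iff_mem]
        exact hmI (Ideal.pow_mem_pow hlamft n)
      rw [pow_mul]
      exact Submodule.smul_mem_smul (Ideal.pow_mem_pow h1 N) Submodule.mem_top
  -- ===== the `𝕋c`-module `Y = Tp^(s*r)` =====
  letI : Module 𝕋c Tp := Module.compHom Tp (ι : 𝕋c →+* Module.End Λ Tp)
  have hsmulTp : ∀ (c : 𝕋c) (v : Tp), c • v = ι c v := fun c v => rfl
  have hsmulY : ∀ (c : 𝕋c) (x : Fin (s * r) → Tp) (i : Fin (s * r)), (c • x) i = ι c (x i) :=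
    fun c x i => rfl
  let D : Submodule 𝕋c (Fin (s * r) → Tp) :=
    { carrier := {x | ∀ i, ∃ y, x i = ϖ ^ (n * N) • y}
      add_mem' := fun {x x'} hx hx' i => by
        obtain ⟨y, hy⟩ := hx i
        obtain ⟨y', hy'⟩ := hx' i
        exact ⟨y + y', by rw [Pi.add_apply, hy, hy', smul_add]⟩
      zero_mem' := fun i => ⟨0, by rw [Pi.zero_apply, smul_zero]⟩
      smul_mem' := fun c x hx i => by
        obtain ⟨y, hy⟩ := hx i
        exact ⟨ι c y, by rw [hsmulY, hy, map_smul]⟩ }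
  have hD : ∀ x : Fin (s * r) → Tp, x ∈ D ↔ ∀ i, ∃ y, x i = ϖ ^ (n * N) • y := fun x => Iff.rfl
  let α : G →* Module.End 𝕋c (Fin (s * r) → Tp) :=
    { toFun := fun g =>
        { toFun := fun x i => ρ g (x i)
          map_add' := fun x x' => by
            funext i
            rw [Pi.add_apply, map_add]
            rfl
          map_smul' := fun c x => by
            funext i
            rw [RingHom.id_apply, hsmulY, hsmulY]
            exact (LinearMap.congr_fun (hcomm c g).eq (x i)).symm }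
      map_one' := by
        apply LinearMap.ext
        intro x
        funext i
        show ρ 1 (x i) = x i
        rw [map_one]
        rfl
      map_mul' := fun g h => by
        apply LinearMap.ext
        intro x
        funext i
        show ρ (g * h) (x i) = ρ g (ρ h (x i))
        rw [map_mul]
        rfl }
  have hα : ∀ (g : G) (x : Fin (s * r) → Tp), α g x = fun i => ρ g (x i) := fun g x => rfl
  have hαD : ∀ g, ∀ z ∈ D, α g z ∈ D := by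
    intro g z hz i
    obtain ⟨y, hy⟩ := hz i
    refine ⟨ρ g y, ?_⟩
    show ρ g (z i) = _
    rw [hy, map_smul]
  have hspanD : ∀ b ∈ Ideal.span {algebraMap Λ 𝕋c ϖ ^ (n * N)}, ∀ y : Fin (s * r) → Tp,
      b • y ∈ D := by
    intro b hb y i
    obtain ⟨u, rfl⟩ := Ideal.mem_span_singleton'.mp hb
    refine ⟨ι u (y i), ?_⟩
    rw [hsmulY, map_mul, Module.End.mul_apply, ← map_pow, AlgHom.commutes,
      Module.algebraMap_end_apply, map_smul]
  -- Cayley–Hamilton on `Y` modulo `D`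
  have hCHY : ∀ g, ∃ c d : 𝕋c, lamb c = (s33c_rhobar π ρ₁ g).trace ∧
      lamb d = (s33c_rhobar π ρ₁ g).det ∧
      ∀ z : Fin (s * r) → Tp, α g (α g z) - c • α g z + d • z ∈ D := by
    intro g
    obtain ⟨c, hc1, hc2⟩ := happrox g (n * N)
    refine ⟨c, algebraMap Λ 𝕋c (ε g), ?_, ?_, fun z i => ?_⟩
    · rw [s33c_rhobar_trace, hlamb, hc1]
    · rw [s33c_rhobar_det, hlamb_alg, hdet]
    · obtain ⟨y, hy⟩ := hc2 (ρ g (z i))
      refine ⟨-y, ?_⟩
      have h1 : ρ g⁻¹ (ρ g (z i)) = z i := by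
        rw [← Module.End.mul_apply, ← map_mul, inv_mul_cancel, map_one, Module.End.one_apply]
      rw [LinearMap.sub_apply, LinearMap.add_apply, LinearMap.smul_apply, h1] at hy
      rw [smul_neg, ← hy, Pi.add_apply, Pi.sub_apply, hsmulY, hsmulY, hα, hα, AlgHom.commutes,
        Module.algebraMap_end_apply]
      abel
  -- the map `Q0 : Y → (X ⧸ P)^s`
  let Q0 : (Fin (s * r) → Tp) →+ (Fin s → (T ⊗[Λ] Tp) ⧸ P) :=
    { toFun := fun x a => P.mkQ (ffc_ia_q0 (Λ := Λ) t (fun b => x (finProdFinEquiv (a, b))))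
      map_zero' := by
        funext a
        have h0 : (fun b : Fin r => (0 : Fin (s * r) → Tp) (finProdFinEquiv (a, b))) = 0 := rfl
        rw [h0, map_zero, map_zero]
        rfl
      map_add' := fun x x' => by
        funext a
        have h0 : (fun b : Fin r => (x + x') (finProdFinEquiv (a, b))) =
            (fun b : Fin r => x (finProdFinEquiv (a, b))) +
              (fun b : Fin r => x' (finProdFinEquiv (a, b))) := rfl
        rw [h0, map_add, map_add]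
        rfl }
  have hQ0 : ∀ (x : Fin (s * r) → Tp) (a : Fin s),
      Q0 x a = P.mkQ (ffc_ia_q0 (Λ := Λ) t (fun b => x (finProdFinEquiv (a, b)))) :=
    fun x a => rfl
  have hQ0D : ∀ d ∈ D, Q0 d = 0 := by
    intro d hd
    funext a
    rw [hQ0]
    exact hq_kill _ (fun b => hd _)
  have hQ0f : ∀ y : Fin (s * r) → Tp, Q0 (ft • y) = 0 := by
    intro y
    funext a
    rw [hQ0, Pi.zero_apply, Submodule.mkQ_apply, Submodule.Quotient.mk_eq_zero]
    have h1 : ffc_ia_q0 (Λ := Λ) t (fun b => (ft • y) (finProdFinEquiv (a, b))) =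
        ((1 : T) ⊗ₜ[Λ] ft : T ⊗[Λ] 𝕋c) • ffc_ia_q0 (Λ := Λ) t (fun b => y (finProdFinEquiv (a, b))) := by
      rw [ffc_ia_q0_apply, ffc_ia_q0_apply, Finset.smul_sum]
      refine Finset.sum_congr rfl fun b _ => ?_
      rw [ffc_ia_smul_def, ffc_ia_Theta_tmul_apply, one_mul, hsmulY]
    rw [h1]
    exact hφ _
  have hQ0e : ∀ g y, Q0 (α g y) = fun a =>
      ffc_quotAct ((RingHom.ker ν) ^ N) (ffc_ia_rhoX (T := T) ι ρ hcomm) g (Q0 y a) := by
    intro g y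
    funext a
    rw [hQ0, hQ0]
    exact hq_equiv g _
  have hQ0s : ∀ w : W, ∃ y : Fin (s * r) → Tp, Q0 y = j w := by
    intro w
    choose x hx using fun a => hq_surj (j w a)
    refine ⟨fun i => x (finProdFinEquiv.symm i).1 (finProdFinEquiv.symm i).2, ?_⟩
    funext a
    rw [hQ0, ← hx a]
    congr 2
    funext b
    rw [Equiv.symm_apply_apply]
  -- ===== assembly =====
  obtain ⟨G1, f1, Fil, h0, hK, hanti, hstab, hq, hsurj, hequiv, hzero, hblr⟩ :=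
    s33c_assemble lamb hmax D K α hαD (s33c_rhobar π ρ₁) (s33c_span_rhobar π hπ ρ₁ hspan) hCHY
      ft (fun a ha y => hspanD _ (hftK a ha) y) Q0 hQ0D hQ0f
      (fun g e a => ffc_quotAct ((RingHom.ker ν) ^ N) (ffc_ia_rhoX (T := T) ι ρ hcomm) g (e a))
      hQ0e actW j hj (fun g w => funext fun i => hje g w i) hQ0s
      (fun g v => (ρ₁ g).mulVec v) f hf hfe
  have hev : ∀ (u : MonoidAlgebra ℤ G) (y : Fin (s * r) → Tp) (i : Fin (s * r)),
      (MonoidAlgebra.lift ℤ _ G α u y) i = MonoidAlgebra.lift ℤ _ G ρ u (y i) := fun u y i =>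
    s33c_lift_comm α ρ (Pi.evalAddMonoidHom (fun _ : Fin (s * r) => Tp) i) (fun g q => rfl) u y
  have hblr' : ∀ a b : MonoidAlgebra ℤ G,
      MonoidAlgebra.lift ℤ _ G (s33c_rhobar π ρ₁) a *
        MonoidAlgebra.lift ℤ _ G (s33c_rhobar π ρ₁) b = 0 →
      ∀ j, ∀ z ∈ Fil j,
        (fun i => MonoidAlgebra.lift ℤ _ G ρ a (MonoidAlgebra.lift ℤ _ G ρ b (z i))) ∈
          Fil (j + 1) := by
    intro a b hab j z hz
    have h1 := hblr a b hab j z hz
    have h2 : MonoidAlgebra.lift ℤ _ G α a (MonoidAlgebra.lift ℤ _ G α b z) =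
        fun i => MonoidAlgebra.lift ℤ _ G ρ a (MonoidAlgebra.lift ℤ _ G ρ b (z i)) := by
      funext i
      rw [hev, hev]
    rwa [h2] at h1
  refine ⟨n * N, s * r, K, G1, f1, Fil, h0, ?_, hanti, ?_, ?_, hsurj, ?_, ?_, hblr', ?_⟩
  · intro x
    rw [hK]
    exact hD x
  · intro j g x hx
    exact hstab j g x hx
  · rintro q ⟨u, hu⟩ j x hx
    refine hq q ?_ j x hx
    rw [RingHom.mem_ker, ← map_natCast (algebraMap Λ 𝕋c), hlamb_alg, hu, map_mul, map_mul,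
      map_mul, (hπker _).mpr hϖ, zero_mul]
  · intro g x hx
    exact hequiv g x hx
  · intro x hx
    exact hzero x (by rwa [hK] at hx)
  · intro τ σ c hτσ j z hz
    have h1 := hblr' (MonoidAlgebra.of ℤ G τ - (c : MonoidAlgebra ℤ G))
      (MonoidAlgebra.of ℤ G σ - 1) (by
        rw [map_sub, map_sub, MonoidAlgebra.lift_of, MonoidAlgebra.lift_of, map_intCast, map_one,
          s33c_rhobar_apply, s33c_rhobar_apply]
        exact hτσ) j z hz
    have h2 : (fun i => MonoidAlgebra.lift ℤ _ G ρ (MonoidAlgebra.of ℤ G τ - (c : MonoidAlgebra ℤ G))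
        (MonoidAlgebra.lift ℤ _ G ρ (MonoidAlgebra.of ℤ G σ - 1) (z i))) =
        fun i => ρ τ (ρ σ (z i) - z i) - c • (ρ σ (z i) - z i) := by
      funext i
      rw [map_sub, map_sub, MonoidAlgebra.lift_of, MonoidAlgebra.lift_of, map_intCast, map_one,
        LinearMap.sub_apply, LinearMap.sub_apply, Module.End.one_apply, Module.End.intCast_apply]
    rwa [h2] at h1

end Main

end Fermat.Agent.S33
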