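/-
S33, cell [S33-CAR+] (helper18).  Prefix `s33c_`.  Mathlib + `S33/Car/BlrField.lean`.

* `s33c_lift_comm` : the linear extensions to `ℤ[G]` of two actions intertwined by an additive map
  are intertwined;  `s33c_lift_mem` : a `G`-stable subgroup is `ℤ[G]`-stable;
* `s33c_blr_subquot` : BLR on a subquotient.  `R → k` a ring homomorphism to a field with maximal
  kernel `𝔪`, `Y` an `R`-module with an `R`-linear action `α` of `G`, `S`, `Z` stable submodules with
  `𝔪 Z ⊆ S`, `ρb : G → GL₂(k)` spanning `M₂(k)`, and on `Z` modulo `S` every `g` satisfies a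
  quadratic equation over `R` lifting the characteristic polynomial of `ρb g`.  Then every relation
  `ρb(x) ρb(y) = 0`, `x y ∈ ℤ[G]`, holds on `Z` modulo `S`.
-/
import Mathlib
import Fermat.Agent.S33.Car.BlrField

set_option autoImplicit false
set_option linter.style.haveILetI false

namespace Fermat.Agent.S33

section LiftComm

variable {G : Type*} [Group G]

/-- intertwined actions have intertwined linear extensions to `ℤ[G]` -/
theorem s33c_lift_comm {R₁ R₂ Q₁ Q₂ : Type*} [CommRing R₁] [CommRing R₂]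
    [AddCommGroup Q₁] [Module R₁ Q₁] [AddCommGroup Q₂] [Module R₂ Q₂]
    (α₁ : G →* Module.End R₁ Q₁) (α₂ : G →* Module.End R₂ Q₂) (φ : Q₁ →+ Q₂)
    (h : ∀ g q, φ (α₁ g q) = α₂ g (φ q)) (x : MonoidAlgebra ℤ G) (q : Q₁) :
    φ (MonoidAlgebra.lift ℤ _ G α₁ x q) = MonoidAlgebra.lift ℤ _ G α₂ x (φ q) := by
  induction x using MonoidAlgebra.induction_on with
  | of g => rw [MonoidAlgebra.lift_of, MonoidAlgebra.lift_of, h]
  | add x y hx hy =>
    rw [map_add, map_add, LinearMap.add_apply, LinearMap.add_apply, map_add, hx, hy]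
  | smul c x hx =>
    rw [map_smul, map_smul, LinearMap.smul_apply, LinearMap.smul_apply, map_zsmul, hx]

/-- a `G`-stable subgroup is stable under `ℤ[G]` -/
theorem s33c_lift_mem {R Q : Type*} [CommRing R] [AddCommGroup Q] [Module R Q]
    (α : G →* Module.End R Q) (S : AddSubgroup Q) (hS : ∀ g, ∀ q ∈ S, α g q ∈ S)
    (x : MonoidAlgebra ℤ G) (q : Q) (hq : q ∈ S) : MonoidAlgebra.lift ℤ _ G α x q ∈ S := by
  induction x using MonoidAlgebra.induction_on with
  | of g =>
    rw [MonoidAlgebra.lift_of]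
    exact hS g q hq
  | add x y hx hy =>
    rw [map_add, LinearMap.add_apply]
    exact S.add_mem hx hy
  | smul c x hx =>
    rw [map_smul, LinearMap.smul_apply]
    exact S.zsmul_mem hx c

end LiftComm

section Subquot

variable {R : Type*} [CommRing R] {k : Type*} [Field k] {Y : Type*} [AddCommGroup Y] [Module R Y]
  {G : Type*} [Group G]

/-- **BLR on a subquotient.** -/
theorem s33c_blr_subquot (lamb : R →+* k) (hmax : (RingHom.ker lamb).IsMaximal)
    (α : G →* Module.End R Y) (Z S : Submodule R Y)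
    (hZ : ∀ g, ∀ z ∈ Z, α g z ∈ Z) (hS : ∀ g, ∀ z ∈ S, α g z ∈ S)
    (hmZ : ∀ a ∈ RingHom.ker lamb, ∀ z ∈ Z, a • z ∈ S)
    (ρb : G →* Matrix (Fin 2) (Fin 2) k) (hspan : Submodule.span k (Set.range ρb) = ⊤)
    (hCH : ∀ g, ∃ c d : R, lamb c = (ρb g).trace ∧ lamb d = (ρb g).det ∧
      ∀ z ∈ Z, α g (α g z) - c • α g z + d • z ∈ S)
    (x y : MonoidAlgebra ℤ G)
    (hxy : MonoidAlgebra.lift ℤ _ G ρb x * MonoidAlgebra.lift ℤ _ G ρb y = 0)
    (z : Y) (hz : z ∈ Z) :
    MonoidAlgebra.lift ℤ _ G α x (MonoidAlgebra.lift ℤ _ G α y z) ∈ S := by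
  classical
  -- the action on `Z`
  let αZ : G →* Module.End R ↥Z :=
    { toFun := fun g => (α g).restrict (hZ g)
      map_one' := by
        apply LinearMap.ext
        intro w
        apply Subtype.ext
        rw [LinearMap.restrict_coe_apply, map_one]
        rfl
      map_mul' := fun g h => by
        apply LinearMap.ext
        intro w
        apply Subtype.ext
        rw [LinearMap.restrict_coe_apply, map_mul]
        rfl }
  have hαZ : ∀ g (w : ↥Z), ((αZ g w : ↥Z) : Y) = α g w.1 := fun g w => rfl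
  -- the quotient
  let S' : Submodule R ↥Z := S.comap Z.subtype
  have hS' : ∀ w : ↥Z, w ∈ S' ↔ w.1 ∈ S := fun w => Iff.rfl
  have hS'stab : ∀ g, S' ≤ S'.comap (αZ g) := by
    intro g w hw
    rw [Submodule.mem_comap, hS', hαZ]
    exact hS g _ ((hS' w).mp hw)
  let αQ : G →* Module.End R (↥Z ⧸ S') :=
    { toFun := fun g => S'.mapQ S' (αZ g) (hS'stab g)
      map_one' := by
        apply Submodule.linearMap_qext
        apply LinearMap.ext
        intro w
        simp
      map_mul' := fun g h => by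
        apply Submodule.linearMap_qext
        apply LinearMap.ext
        intro w
        simp [Module.End.mul_apply] }
  have hαQ : ∀ g (w : ↥Z), αQ g (S'.mkQ w) = S'.mkQ (αZ g w) := fun g w => rfl
  -- `𝔪` kills the quotient
  have hkill : Module.IsTorsionBySet R (↥Z ⧸ S') (RingHom.ker lamb : Set R) := by
    intro q a
    obtain ⟨w, rfl⟩ := S'.mkQ_surjective q
    rw [← map_smul, Submodule.mkQ_apply, Submodule.Quotient.mk_eq_zero, hS']
    exact hmZ a.1 a.2 w.1 w.2
  letI : Field (R ⧸ RingHom.ker lamb) := Ideal.Quotient.field (RingHom.ker lamb)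
  letI : Algebra (R ⧸ RingHom.ker lamb) k := (RingHom.kerLift lamb).toAlgebra
  letI : Module (R ⧸ RingHom.ker lamb) (↥Z ⧸ S') := hkill.module
  have hsmul : ∀ (a : R) (q : ↥Z ⧸ S'), (Ideal.Quotient.mk (RingHom.ker lamb) a) • q = a • q :=
    fun a q => rfl
  have halg : ∀ a : R, algebraMap (R ⧸ RingHom.ker lamb) k (Ideal.Quotient.mk _ a) = lamb a :=
    fun a => rfl
  let αQ' : G →* Module.End (R ⧸ RingHom.ker lamb) (↥Z ⧸ S') :=
    { toFun := fun g =>
        { toFun := fun q => αQ g q
          map_add' := fun q q' => map_add _ q q'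
          map_smul' := fun b q => by
            obtain ⟨a, rfl⟩ := Ideal.Quotient.mk_surjective b
            rw [RingHom.id_apply, hsmul, hsmul, map_smul] }
      map_one' := by
        apply LinearMap.ext
        intro q
        show αQ 1 q = q
        rw [map_one]
        rfl
      map_mul' := fun g h => by
        apply LinearMap.ext
        intro q
        show αQ (g * h) q = αQ g (αQ h q)
        rw [map_mul]
        rfl }
  have hαQ' : ∀ g q, αQ' g q = αQ g q := fun g q => rfl
  have hCH' : ∀ g, ∃ a d : R ⧸ RingHom.ker lamb,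
      algebraMap (R ⧸ RingHom.ker lamb) k a = (ρb g).trace ∧
      algebraMap (R ⧸ RingHom.ker lamb) k d = (ρb g).det ∧
      αQ' g * αQ' g - a • αQ' g + d • (1 : Module.End (R ⧸ RingHom.ker lamb) (↥Z ⧸ S')) = 0 := by
    intro g
    obtain ⟨c, d, hc, hd, h⟩ := hCH g
    refine ⟨Ideal.Quotient.mk _ c, Ideal.Quotient.mk _ d, by rw [halg, hc], by rw [halg, hd], ?_⟩
    apply LinearMap.ext
    intro q
    obtain ⟨w, rfl⟩ := S'.mkQ_surjective q
    rw [LinearMap.zero_apply, LinearMap.add_apply, LinearMap.sub_apply, Module.End.mul_apply,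
      LinearMap.smul_apply, LinearMap.smul_apply, Module.End.one_apply, hαQ', hαQ', hαQ, hαQ,
      hsmul, hsmul]
    have h4 : S'.mkQ (αZ g (αZ g w)) - c • S'.mkQ (αZ g w) + d • S'.mkQ w =
        S'.mkQ (αZ g (αZ g w) - c • αZ g w + d • w) := by
      rw [map_add, map_sub, map_smul, map_smul]
    rw [h4, Submodule.mkQ_apply, Submodule.Quotient.mk_eq_zero, hS']
    exact h w.1 w.2
  have key := s33c_blr_field αQ' ρb hspan hCH' x y hxy
  -- back to `Y`
  have h1 : ∀ (u : MonoidAlgebra ℤ G) (w : ↥Z),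
      S'.mkQ (MonoidAlgebra.lift ℤ _ G αZ u w) = MonoidAlgebra.lift ℤ _ G αQ' u (S'.mkQ w) :=
    fun u w => s33c_lift_comm αZ αQ' S'.mkQ.toAddMonoidHom (fun g w => rfl) u w
  have h2 : ∀ (u : MonoidAlgebra ℤ G) (w : ↥Z),
      ((MonoidAlgebra.lift ℤ _ G αZ u w : ↥Z) : Y) = MonoidAlgebra.lift ℤ _ G α u w.1 :=
    fun u w => s33c_lift_comm αZ α Z.subtype.toAddMonoidHom (fun g w => rfl) u w
  have h3 : S'.mkQ (MonoidAlgebra.lift ℤ _ G αZ x (MonoidAlgebra.lift ℤ _ G αZ y ⟨z, hz⟩)) = 0 := by
    rw [h1, h1, ← Module.End.mul_apply, key, LinearMap.zero_apply]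
  rw [Submodule.mkQ_apply, Submodule.Quotient.mk_eq_zero, hS', h2, h2] at h3
  exact h3

end Subquot

end Fermat.Agent.S33
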